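/-
S56 / F / Tame / Defs : FLAT, irreducible case, block T (tame characters).      Owner: helper93.

GOAL (`Tame/Main.lean`).  `V = k²` with the action `resAct M`, `M|D_p` irreducible, `det M = ω`, `p` odd, and an
order `H` of `D_p`-equivariant functions on `V` (`Ord R (Dq p) (resAct M) H`).  Then for `τ ∈ I_p`,
`ϖ^(p²-1) = -p`, `P ∈ ℤ[X]`:   `|P(τ ϖ/ϖ)| < 1  ⟹  P(M τ) = 0`       (`M|I = θ₂ ⊕ θ₂^p`).

PLAN.  `|x| = nrm p x`,  `th τ z = τ z / z`  (the tame symbol; modulo `𝔪` it only depends on `|z|`).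
(A) `Depth.lean`  `z0 = f0 x0 - f0 0` of maximal norm `r` among all `f x - f 0` (`IsTop`).
     `{y | ∀ a ∈ k, f ∈ H, |f (a y) - f 0| < r}` is a `D_p`-stable `k`-subspace `≠ V`, hence `0`.
     `r < 1` (otherwise `I_p` acts trivially, but `det = ω` is ramified);  `r^(p-1) ≥ |p|` (`Ord.torsion`).
(B) `Lin.lean`    linearisation modulo norm `< r`:  `f (Q(M τ) x) - f 0 ≡ Q(th τ z0) (f x - f 0)`, `Q ∈ ℤ[X]`, so
     `Q(M τ) = 0 ↔ |Q(th τ z0)| < 1`   (`key`),    `|th σ z0 - Q(th τ z0)| < 1 → M σ = Q(M τ)`   (`key2`).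
(C) `Frob.lean`   `φ` a Frobenius: `M(φ τ φ⁻¹) = (M τ)^p`; Cayley-Hamilton twice: `tr^p = tr`; so the characteristic
     polynomial of `M τ` is `X² - t X + ω(τ)`, `t ∈ 𝔽_p`, and `c = th τ z0` is a root of it mod `𝔪`:
     `c^(p+1) ≡ ω(τ)` in all cases.
(D) `Trace.lean`  `z1 := z0^(p+1)/(ζ-1)` has trivial tame symbol and is fixed by `ker M ∩ I`, of index prime to `p` in
     `I`; its trace to `Qbar^I` has norm `|z1|`, so `|z1| ∈ p^ℤ`.
(E) `Main.lean`   `r = |ϖ|^j`, `j = 1 + m(p-1)`, `0 < j ≤ p+1`: `j ∈ {1, p}`; `th τ z0 ≡ (τ ϖ/ϖ)^j`.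
-/
import Fermat.Agent.S56.F.Char
import Fermat.Agent.S55.Places.Residue

set_option autoImplicit false

noncomputable section

namespace Fermat.Agent.S56.F.Tame

open Fermat.Agent.S55.Places ExtCitation

/-- the tame symbol `τ z / z`. -/
def th (τ : GQ) (z : Qbar) : Qbar := τ z / z

/-- the hypotheses of block T. -/
structure Ctx (p : ℕ) [Fact p.Prime] {k : Type} [Field k] [Algebra (ZMod p) k] (M : GQ →* M2 k)
    {R : Subring Qbar} (H : Subalgebra R ((Fin 2 → k) → Qbar)) : Prop where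
  hp2 : p ≠ 2
  hR : ∀ r ∈ R, nrm p r ≤ 1
  ord : Ord R (Dq p) (resAct M) H
  det : ∀ σ, (M σ).det = algebraMap (ZMod p) k ((cycloChar p σ : (ZMod p)ˣ) : ZMod p)
  irr : ∀ v : Fin 2 → k, v ≠ 0 → ∃ σ ∈ Dq p, ∀ a : k, (M σ).mulVec v ≠ a • v

/-- `z0` is a value `f x - f 0` of maximal norm. -/
structure IsTop (p : ℕ) [Fact p.Prime] {R : Subring Qbar} {E : Type} [AddCommGroup E]
    (H : Subalgebra R (E → Qbar)) (z0 : Qbar) : Prop where
  le : ∀ f ∈ H, ∀ x, nrm p (f x - f 0) ≤ nrm p z0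
  att : ∃ f ∈ H, ∃ x, z0 = f x - f 0

end Fermat.Agent.S56.F.Tame

end
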