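/-
S56 / F / Tame / LinAlg : 2 x 2 linear algebra over a field of characteristic `p`.  Mathlib only.
TASK  S56/T-LinAlg  (EASY-MEDIUM, ~150 lines).
-/
import Fermat.Agent.S56.F.Tame.Defs

set_option autoImplicit false

noncomputable section

namespace Fermat.Agent.S56.F.Tame

open Polynomial

variable {k : Type} [Field k]

/-- two non proportional vectors span `k²`.  Cramer: `δ := y 0 * w 1 - y 1 * w 0 ≠ 0` (if `δ = 0` then `w = a • y` with
`a = w 0 / y 0` or `w 1 / y 1`), `a = (x 0 * w 1 - x 1 * w 0)/δ`, `b = (y 0 * x 1 - y 1 * x 0)/δ`. -/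
theorem exists_comb {y w : Fin 2 → k} (hy : y ≠ 0) (hw : ∀ a : k, w ≠ a • y) (x : Fin 2 → k) :
    ∃ a b : k, x = a • y + b • w := by
  have hδ : y 0 * w 1 - y 1 * w 0 ≠ 0 := by
    intro h0
    by_cases h : y 0 = 0
    · have h1 : y 1 ≠ 0 := by
        intro h1
        apply hy
        funext i
        fin_cases i
        · exact h
        · exact h1
      apply hw (w 1 / y 1)
      funext i
      fin_cases i
      · simp only [Fin.zero_eta, Pi.smul_apply, smul_eq_mul]
        rw [h, zero_mul, zero_sub, neg_eq_zero] at h0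
        rw [h, mul_zero]
        exact (mul_eq_zero.1 h0).resolve_left h1
      · simp only [Fin.mk_one, Pi.smul_apply, smul_eq_mul]
        field_simp
    · apply hw (w 0 / y 0)
      funext i
      fin_cases i
      · simp only [Fin.zero_eta, Pi.smul_apply, smul_eq_mul]
        field_simp
      · simp only [Fin.mk_one, Pi.smul_apply, smul_eq_mul]
        field_simp
        linear_combination h0
  refine ⟨(x 0 * w 1 - x 1 * w 0) / (y 0 * w 1 - y 1 * w 0),
    (y 0 * x 1 - y 1 * x 0) / (y 0 * w 1 - y 1 * w 0), ?_⟩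
  funext i
  fin_cases i
  · simp only [Fin.zero_eta, Pi.add_apply, Pi.smul_apply, smul_eq_mul]
    rw [div_mul_eq_mul_div, div_mul_eq_mul_div, ← add_div, eq_div_iff hδ]
    ring
  · simp only [Fin.mk_one, Pi.add_apply, Pi.smul_apply, smul_eq_mul]
    rw [div_mul_eq_mul_div, div_mul_eq_mul_div, ← add_div, eq_div_iff hδ]
    ring

/-- Cayley-Hamilton for 2 x 2 matrices (`Matrix.charpoly_fin_two`, `Matrix.aeval_self_charpoly`; or `Matrix.ext` +
`Fin.sum_univ_two` + `ring`). -/
theorem sq_eq (T : M2 k) : T ^ 2 = T.trace • T - T.det • (1 : M2 k) := by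
  have h := Matrix.aeval_self_charpoly T
  rw [Matrix.charpoly_fin_two] at h
  simp only [map_add, map_sub, map_pow, aeval_X, map_mul, aeval_C] at h
  rw [Algebra.algebraMap_eq_smul_one, Algebra.algebraMap_eq_smul_one, smul_mul_assoc, one_mul] at h
  rw [← sub_eq_zero, ← h]
  abel

variable (p : ℕ) [Fact p.Prime] [Algebra (ZMod p) k]

include p in
theorem LinAlg_charP : CharP k p :=
  charP_of_injective_algebraMap (algebraMap (ZMod p) k).injective p

/-- an element fixed by Frobenius lies in the prime field (`Subfield.mem_bot_iff_pow_eq_self`, `mem_bot_iff_intCast`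
as in `Char_exists_natCast` in `S56/F/Char.lean`; or: `X^p - X` has at most `p` roots). -/
theorem exists_natCast_of_pow_eq {x : k} (h : x ^ p = x) : ∃ n : ℕ, x = (n : k) := by
  have := LinAlg_charP (k := k) p
  obtain ⟨n, hn⟩ := (mem_bot_iff_intCast p k).1 ((Subfield.mem_bot_iff_pow_eq_self k p).2 h)
  refine ⟨(n : ZMod p).val, ?_⟩
  rw [← hn, ZMod.natCast_val, ZMod.cast_intCast']

/-- `T^p` conjugate to `T`, `det T ∈ 𝔽_p^×`  ⟹  `tr T ∈ 𝔽_p`.
`sq_eq T` to the power `p` (`sub_pow_char_of_commute`, `CharP (M2 k) p` is `Matrix.charP`, `smul_pow`):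
`(T^p)^2 = t^p • T^p - d^p • 1`; `sq_eq (T^p)` with `tr (T^p) = tr (g T g') = t` (`Matrix.trace_mul_cycle` /
`Matrix.trace_mul_comm`), `det (T^p) = d^p = d`: `(T^p)^2 = t • T^p - d • 1`.  So `(t^p - t) • T^p = 0`, and `T^p ≠ 0` because
`det (T^p) = d ≠ 0`. -/
theorem trace_pow_eq {T g g' : M2 k} (hg : g * g' = 1) (hconj : g * T * g' = T ^ p)
    (hd0 : T.det ≠ 0) (hd : T.det ^ p = T.det) : T.trace ^ p = T.trace := by
  have := LinAlg_charP (k := k) p
  have hg' : g' * g = 1 := mul_eq_one_comm.1 hg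
  have htr : (T ^ p).trace = T.trace := by
    rw [← hconj, Matrix.trace_mul_cycle, hg', one_mul]
  have hdet : (T ^ p).det = T.det := by rw [Matrix.det_pow, hd]
  have h1 : (T ^ p) ^ 2 = T.trace • T ^ p - T.det • (1 : M2 k) := by
    have := sq_eq (T ^ p)
    rwa [htr, hdet] at this
  have h2 : (T ^ p) ^ 2 = T.trace ^ p • T ^ p - T.det • (1 : M2 k) := by
    have hc : Commute (T.trace • T) (T.det • (1 : M2 k)) := (Commute.one_right _).smul_right _
    rw [← pow_mul, mul_comm, pow_mul, sq_eq T, sub_pow_char_of_commute p hc, _root_.smul_pow, _root_.smul_pow,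
      one_pow, hd]
  have h3 : (T.trace ^ p - T.trace) • T ^ p = 0 := by
    rw [sub_smul, sub_eq_zero]
    have := h2.symm.trans h1
    exact sub_left_injective this
  rcases smul_eq_zero.1 h3 with h4 | h4
  · exact sub_eq_zero.1 h4
  · exfalso
    apply hd0
    rw [← hdet, h4, Matrix.det_zero]

end Fermat.Agent.S56.F.Tame

end
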