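/-
S56 / F / Tame / Theta : the tame symbol `th τ z = τ z / z` and congruences of integer polynomials.
TASKS  S56/T-Poly (section Poly, EASY, ~100 lines),  S56/T-Theta (section Theta, EASY-MEDIUM, ~150 lines).

Tools (`S55/Places/Norm.lean`, `Residue.lean`): `nrm_mul, nrm_div, nrm_pow, nrm_add_le_max, nrm_sub_le_max, nrm_intCast_le_one`,
`nrm_map_of_mem_Dq : g ∈ Dq q → nrm q (g x) = nrm q x`,
`mem_Iq_iff : g ∈ Iq q ↔ g ∈ Dq q ∧ ∀ x, nrm q x ≤ 1 → nrm q (g x - x) < 1`, `Iq_le_Dq`, `Iq_conj_mem`,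
`IsFrob q φ = (φ ∈ Dq q ∧ ∀ x, nrm q x ≤ 1 → nrm q (φ x - x ^ q) < 1)`, `nrm_pow_sub_pow_lt_one`.
MODEL PROOFS: steps (i), (ii) in the proof of `Ord.scalar_of_frob` (`S56/F/Char.lean`) are `th_congr`, `th_frob`.
-/
import Fermat.Agent.S56.F.Tame.Defs

set_option autoImplicit false

noncomputable section

namespace Fermat.Agent.S56.F.Tame

open Fermat.Agent.S55.Places ExtCitation Polynomial

variable {p : ℕ} [Fact p.Prime]

/-! ### TASK S56/T-Poly -/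
section Poly

/-- `Polynomial.induction_on` (or `aeval_eq_sum_range` + `nrm_sum_le`). -/
theorem nrm_aeval_le_one {x : Qbar} (hx : nrm p x ≤ 1) (Q : ℤ[X]) : nrm p (aeval x Q) ≤ 1 := by
  induction Q using Polynomial.induction_on' with
  | add P Q hP hQ =>
    rw [map_add]
    exact (nrm_add_le_max p _ _).trans (max_le hP hQ)
  | monomial n a =>
    rw [aeval_monomial, nrm_mul, nrm_pow]
    have h1 : nrm p (algebraMap ℤ Qbar a) ≤ 1 := by
      rw [eq_intCast]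
      exact nrm_intCast_le_one p a
    exact mul_le_one₀ h1 (pow_nonneg (nrm_nonneg p x) n) (pow_le_one₀ (nrm_nonneg p x) hx)

/-- `Polynomial.induction_on`; for monomials `nrm_pow_sub_pow_lt_one`. -/
theorem nrm_aeval_sub_lt {x y : Qbar} (hx : nrm p x ≤ 1) (hy : nrm p y ≤ 1)
    (h : nrm p (x - y) < 1) (Q : ℤ[X]) : nrm p (aeval x Q - aeval y Q) < 1 := by
  induction Q using Polynomial.induction_on' with
  | add P Q hP hQ =>
    rw [map_add, map_add]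
    have e : aeval x P + aeval x Q - (aeval y P + aeval y Q)
        = (aeval x P - aeval y P) + (aeval x Q - aeval y Q) := by ring
    rw [e]
    exact (nrm_add_le_max p _ _).trans_lt (max_lt hP hQ)
  | monomial n a =>
    rw [aeval_monomial, aeval_monomial, ← mul_sub, nrm_mul]
    have h1 : nrm p (algebraMap ℤ Qbar a) ≤ 1 := by
      rw [eq_intCast]
      exact nrm_intCast_le_one p a
    have h2 := nrm_pow_sub_pow_lt_one hx hy n h
    calc nrm p (algebraMap ℤ Qbar a) * nrm p (x ^ n - y ^ n)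
        ≤ 1 * nrm p (x ^ n - y ^ n) := mul_le_mul_of_nonneg_right h1 (nrm_nonneg p _)
      _ < 1 := by rw [one_mul]; exact h2

theorem nrm_aeval_lt_of_congr {x y : Qbar} (hx : nrm p x ≤ 1) (hy : nrm p y ≤ 1)
    (h : nrm p (x - y) < 1) (Q : ℤ[X]) (hQ : nrm p (aeval x Q) < 1) : nrm p (aeval y Q) < 1 := by
  have h1 := nrm_aeval_sub_lt hx hy h Q
  have e : aeval y Q = aeval x Q - (aeval x Q - aeval y Q) := by ring
  rw [e]
  exact (nrm_sub_le_max p _ _).trans_lt (max_lt hQ h1)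

/-- every `σ : GQ` commutes with integer polynomials (`Polynomial.aeval_algHom_apply` for the `ℤ`-algebra hom
underlying `σ`, or `Polynomial.induction_on`). -/
theorem map_aeval_int (σ : GQ) (x : Qbar) (Q : ℤ[X]) : σ (aeval x Q) = aeval (σ x) Q := by
  induction Q using Polynomial.induction_on' with
  | add P Q hP hQ => rw [map_add, map_add, map_add, hP, hQ]
  | monomial n a => rw [aeval_monomial, aeval_monomial, map_mul, map_pow, eq_intCast, map_intCast]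

/-- `φ` a Frobenius (`exists_isFrob p`): `|Q(φ x)| = |φ (Q x)| = |Q x| < 1` and `φ x ≡ x^p`. -/
theorem nrm_aeval_pow_lt {x : Qbar} (hx : nrm p x ≤ 1) (Q : ℤ[X]) (h : nrm p (aeval x Q) < 1) :
    nrm p (aeval (x ^ p) Q) < 1 := by
  obtain ⟨φ, hφ⟩ := exists_isFrob p
  have h1 : nrm p (aeval (φ x) Q) < 1 := by
    rw [← map_aeval_int, nrm_map_of_mem_Dq p hφ.1]
    exact h
  have hφx : nrm p (φ x) ≤ 1 := by
    rw [nrm_map_of_mem_Dq p hφ.1]
    exact hx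
  exact nrm_aeval_lt_of_congr hφx (by rw [nrm_pow]; exact pow_le_one₀ (nrm_nonneg p x) hx)
    (hφ.2 x hx) Q h1

end Poly

/-! ### TASK S56/T-Theta -/
section Theta

theorem th_ne_zero (τ : GQ) {z : Qbar} (hz : z ≠ 0) : th τ z ≠ 0 := by
  unfold th
  exact div_ne_zero ((map_ne_zero τ).2 hz) hz

theorem nrm_th {τ : GQ} (hτ : τ ∈ Dq p) {z : Qbar} (hz : z ≠ 0) : nrm p (th τ z) = 1 := by
  unfold th
  rw [nrm_div, nrm_map_of_mem_Dq p hτ, div_self ((nrm_pos_iff p).2 hz).ne']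

theorem th_mul_arg (τ : GQ) (z w : Qbar) : th τ (z * w) = th τ z * th τ w := by
  unfold th
  rw [map_mul, mul_div_mul_comm]

theorem th_div_arg (τ : GQ) (z w : Qbar) : th τ (z / w) = th τ z / th τ w := by
  unfold th
  rw [map_div₀, div_div_div_comm]

theorem th_pow_arg (τ : GQ) (z : Qbar) (n : ℕ) : th τ (z ^ n) = th τ z ^ n := by
  unfold th
  rw [map_pow, div_pow]

/-- a unit has trivial symbol: `τ u / u - 1 = (τ u - u)/u`. -/
theorem th_unit {τ : GQ} (hτ : τ ∈ Iq p) {u : Qbar} (hu : nrm p u = 1) :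
    nrm p (th τ u - 1) < 1 := by
  have hu0 : u ≠ 0 := (nrm_pos_iff p).1 (hu ▸ one_pos)
  have e : th τ u - 1 = (τ u - u) / u := by
    unfold th
    field_simp
  rw [e, nrm_div, hu, div_one]
  exact ((mem_Iq_iff p).1 hτ).2 u hu.le

/-- the symbol only depends on the norm: `z' = u z`, `|u| = 1`, `th τ z' - th τ z = (th τ u - 1) th τ z`. -/
theorem th_congr {τ : GQ} (hτ : τ ∈ Iq p) {z z' : Qbar} (hz : z ≠ 0) (h : nrm p z = nrm p z') :
    nrm p (th τ z - th τ z') < 1 := by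
  have hz0 : 0 < nrm p z := (nrm_pos_iff p).2 hz
  have hu : nrm p (z' / z) = 1 := by rw [nrm_div, ← h, div_self hz0.ne']
  have e : th τ z - th τ z' = -((th τ (z' / z) - 1) * th τ z) := by
    have e1 : th τ z' = th τ (z' / z) * th τ z := by
      rw [← th_mul_arg, div_mul_cancel₀ _ hz]
    rw [e1]
    ring
  rw [e, nrm_neg, nrm_mul, nrm_th (Iq_le_Dq p hτ) hz, mul_one]
  exact th_unit hτ hu

/-- for `|w| ≤ |z|`:  `τ w ≡ th τ z · w` modulo norm `< |z|`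
(`w = u z`, `|u| ≤ 1`, `τ w - th τ z * w = (τ u - u) τ z`). -/
theorem map_sub_th_mul_lt {τ : GQ} (hτ : τ ∈ Iq p) {z w : Qbar} (hz : z ≠ 0)
    (h : nrm p w ≤ nrm p z) : nrm p (τ w - th τ z * w) < nrm p z := by
  have hz0 : 0 < nrm p z := (nrm_pos_iff p).2 hz
  have hu : nrm p (w / z) ≤ 1 := by
    rw [nrm_div]
    exact (div_le_one hz0).2 h
  have e : τ w - th τ z * w = (τ (w / z) - w / z) * τ z := by
    have hτz : τ z ≠ 0 := (map_ne_zero τ).2 hz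
    unfold th
    rw [map_div₀]
    field_simp
  rw [e, nrm_mul, nrm_map_of_mem_Dq p (Iq_le_Dq p hτ)]
  exact mul_lt_of_lt_one_left hz0 (((mem_Iq_iff p).1 hτ).2 _ hu)

/-- `z' := φ⁻¹ z` has the same norm; `th (φ τ φ⁻¹) z = φ (th τ z')`; `IsFrob`; `th_congr`;
`nrm_pow_sub_pow_lt_one`. -/
theorem th_frob {φ : GQ} (hφ : IsFrob p φ) {τ : GQ} (hτ : τ ∈ Iq p) {z : Qbar} (hz : z ≠ 0) :
    nrm p (th (φ * τ * φ⁻¹) z - th τ z ^ p) < 1 := by
  have hφD : φ ∈ Dq p := hφ.1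
  have hφD' : φ⁻¹ ∈ Dq p := (Dq p).inv_mem hφD
  have hτD : τ ∈ Dq p := Iq_le_Dq p hτ
  have hz' : φ⁻¹ z ≠ 0 := (map_ne_zero (φ⁻¹ : GQ)).2 hz
  have hn : nrm p (φ⁻¹ z) = nrm p z := nrm_map_of_mem_Dq p hφD' z
  have hφz' : φ (φ⁻¹ z) = z := by
    rw [← AlgEquiv.mul_apply, mul_inv_cancel, AlgEquiv.one_apply]
  have e1 : th (φ * τ * φ⁻¹) z = φ (th τ (φ⁻¹ z)) := by
    unfold th
    rw [map_div₀, hφz', AlgEquiv.mul_apply, AlgEquiv.mul_apply]
  have h1 : nrm p (φ (th τ (φ⁻¹ z)) - th τ (φ⁻¹ z) ^ p) < 1 := hφ.2 _ (nrm_th hτD hz').le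
  have h2 : nrm p (th τ (φ⁻¹ z) ^ p - th τ z ^ p) < 1 :=
    nrm_pow_sub_pow_lt_one (nrm_th hτD hz').le (nrm_th hτD hz).le p (th_congr hτ hz' hn)
  have e : th (φ * τ * φ⁻¹) z - th τ z ^ p
      = (φ (th τ (φ⁻¹ z)) - th τ (φ⁻¹ z) ^ p) + (th τ (φ⁻¹ z) ^ p - th τ z ^ p) := by
    rw [e1]
    ring
  rw [e]
  exact (nrm_add_le_max p _ _).trans_lt (max_lt h1 h2)

/-- `τ (ζ - 1)/(ζ - 1) = (ζ^c - 1)/(ζ - 1) = ∑_{i<c} ζ^i ≡ c`, `c = cyE p τ` (`map_eq_pow_cyE`, `Commute.geom_sum₂` /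
`geom_sum_mul`; `|ζ^i - 1| < 1`: `|ζ - 1| < 1` by `nrm_one_sub_zeta` (`n = 0`), then `nrm_pow_sub_pow_lt_one`). -/
theorem th_cyclo (τ : GQ) {ζ : Qbar} (hζ : IsPrimitiveRoot ζ p) :
    nrm p (th τ (ζ - 1) - (cyE p τ : Qbar)) < 1 := by
  have hp : p.Prime := Fact.out
  have hζp : ζ ^ p = 1 := hζ.pow_eq_one
  have hζ1 : ζ - 1 ≠ 0 := sub_ne_zero.2 (hζ.ne_one hp.one_lt)
  have hζn : nrm p ζ = 1 := nrm_eq_one_of_pow_eq_one p hp.ne_zero hζp
  have hlt : nrm p (ζ - 1) < 1 := by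
    have h1 := nrm_one_sub_zeta (p := p) (n := 0) (ζ := ζ) (by simpa using hζ)
    rw [pow_zero, one_mul, nrm_sub_comm] at h1
    by_contra hge
    have hge' : 1 ≤ nrm p (ζ - 1) := not_lt.1 hge
    have h2 : (1 : ℝ) ≤ nrm p (ζ - 1) ^ (p - 1) := one_le_pow₀ hge'
    rw [h1] at h2
    have h3 : (p : ℝ)⁻¹ < 1 := inv_lt_one_of_one_lt₀ (by exact_mod_cast hp.one_lt)
    exact absurd h2 (not_le.2 h3)
  have e1 : th τ (ζ - 1) = ∑ j ∈ Finset.range (cyE p τ), ζ ^ j := by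
    unfold th
    rw [map_sub, map_one, map_eq_pow_cyE τ hζp, div_eq_iff hζ1]
    exact (geom_sum_mul ζ (cyE p τ)).symm
  have e2 : th τ (ζ - 1) - (cyE p τ : Qbar) = ∑ j ∈ Finset.range (cyE p τ), (ζ ^ j - 1) := by
    rw [e1, Finset.sum_sub_distrib, Finset.sum_const, Finset.card_range, nsmul_eq_mul, mul_one]
  rw [e2]
  have hterm : ∀ j : ℕ, nrm p (ζ ^ j - 1) ≤ nrm p (ζ - 1) := by
    intro j
    have e3 : ζ ^ j - 1 = (∑ i ∈ Finset.range j, ζ ^ i) * (ζ - 1) := (geom_sum_mul ζ j).symm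
    rw [e3, nrm_mul]
    refine mul_le_of_le_one_left (nrm_nonneg p _) ?_
    refine nrm_sum_le p _ _ 1 zero_le_one (fun i _ => ?_)
    rw [nrm_pow, hζn, one_pow]
  exact (nrm_sum_le p _ _ _ (nrm_nonneg p _) (fun j _ => hterm j)).trans_lt hlt

end Theta

end Fermat.Agent.S56.F.Tame

end
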