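/-
S56 / F / Tame / Depth : step (A).  The depth is constant on `V ∖ 0`, `|p| ≤ r^(p-1)`, `r < 1`.
TASKS  S56/T-Depth-a (section Small, EASY-MEDIUM, ~150 lines), S56/T-Depth-b (section Irr, MEDIUM, ~120 lines),
       S56/T-Depth-c (section Bounds, MEDIUM, ~150 lines).

Tools: `S56/F/Basic.lean` (GENERIC in `R`, `Γ`): `Ord.nrm_le_one hR h hf x`, `Ord.nrm_translate_le`, `Ord.nrm_le_of_translate`,
`Ord.exists_max hR h x y`, `Ord.act_zero`, `h.equiv`, `h.sep`; `S56/F/Closure.lean`: `Ord.finite`; `S56/F/Torsion.lean`: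
`Ord.torsion`.  MODEL PROOFS: `S56/F/Conn.lean` (`add_mem_conn`, `neg_mem_conn`, `act_sub_mem_conn`: the same statements
for `t = 1`, `R = R0 p`, `Γ = Iq p`) and the beginning of the proof of `Ord.scalar_of_frob` in `S56/F/Char.lean` (`exists_top`).
`resAct M σ v = (M σ).mulVec v` is `rfl`.
-/
import Fermat.Agent.S56.F.Tame.LinAlg
import Fermat.Agent.S56.F.Tame.Theta

set_option autoImplicit false

noncomputable section

namespace Fermat.Agent.S56.F.Tame

open Fermat.Agent.S55.Places ExtCitation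

variable {p : ℕ} [Fact p.Prime] {k : Type} [Field k] [Algebra (ZMod p) k] {M : GQ →* M2 k}
  {R : Subring Qbar} {H : Subalgebra R ((Fin 2 → k) → Qbar)} {z0 : Qbar}

/-! ### TASK S56/T-Depth-a -/
section Small

/-- `Ord.finite`, `Ord.exists_max` for each `x`, `Finite.exists_max`. -/
theorem exists_top (C : Ctx p M H) : ∃ z0 : Qbar, IsTop p H z0 := by
  have hfin : Finite (Fin 2 → k) := C.ord.finite
  choose F hF hmax using fun x : Fin 2 → k => C.ord.exists_max C.hR x 0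
  obtain ⟨x0, hx0⟩ := Finite.exists_max (fun x => nrm p (F x x - F x 0))
  exact ⟨F x0 x0 - F x0 0, ⟨fun f hf x => (hmax x f hf).trans (hx0 x), F x0, hF x0, x0, rfl⟩⟩

/-- `h.sep x 0` for some `x ≠ 0`. -/
theorem IsTop.ne_zero (T : IsTop p H z0) (C : Ctx p M H) : z0 ≠ 0 := by
  intro h0
  have hx : (fun _ => 1 : Fin 2 → k) ≠ 0 := by
    intro h
    have := congrFun h 0
    simp at this
  obtain ⟨f, hf, hne⟩ := C.ord.sep _ 0 hx
  have h1 := T.le f hf (fun _ => 1)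
  rw [h0, nrm_zero] at h1
  have h2 := le_antisymm h1 (nrm_nonneg p _)
  rw [nrm_eq_zero_iff, sub_eq_zero] at h2
  exact hne h2

theorem IsTop.pos (T : IsTop p H z0) (C : Ctx p M H) : 0 < nrm p z0 :=
  (nrm_pos_iff p).2 (T.ne_zero C)

theorem IsTop.nrm_le_one (T : IsTop p H z0) (C : Ctx p M H) : nrm p z0 ≤ 1 := by
  obtain ⟨f, hf, x, hz⟩ := T.att
  rw [hz]
  exact (nrm_sub_le_max p _ _).trans
    (max_le (C.ord.nrm_le_one C.hR hf x) (C.ord.nrm_le_one C.hR hf 0))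

/-- as `Ord.add_mem_conn`. -/
theorem small_add (C : Ctx p M H) {t : ℝ} {u v : Fin 2 → k}
    (hu : ∀ f ∈ H, nrm p (f u - f 0) < t) (hv : ∀ f ∈ H, nrm p (f v - f 0) < t) :
    ∀ f ∈ H, nrm p (f (u + v) - f 0) < t := by
  obtain ⟨f₀, hf₀, hmax⟩ := C.ord.exists_max C.hR v 0
  intro f hf
  have h1 := C.ord.nrm_translate_le C.hR hmax u f hf
  have e : f (u + v) - f 0 = (f (u + v) - f u) + (f u - f 0) := by ring
  rw [e]
  exact lt_of_le_of_lt (nrm_add_le_max p _ _)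
    (max_lt (lt_of_le_of_lt h1 (hv f₀ hf₀)) (hu f hf))

/-- `f (σ u) - f 0 = σ (f u - f 0)` (`h.equiv`, `Matrix.mulVec_zero`), `nrm_map_of_mem_Dq`. -/
theorem small_act (C : Ctx p M H) {t : ℝ} {σ : GQ} (hσ : σ ∈ Dq p) {u : Fin 2 → k}
    (hu : ∀ f ∈ H, nrm p (f u - f 0) < t) : ∀ f ∈ H, nrm p (f ((M σ).mulVec u) - f 0) < t := by
  intro f hf
  have h1 : f ((M σ).mulVec u) = σ (f u) := C.ord.equiv f hf σ hσ u
  have h2 : f 0 = σ (f 0) := by
    have := C.ord.equiv f hf σ hσ 0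
    rwa [C.ord.act_zero hσ] at this
  have e : f ((M σ).mulVec u) - f 0 = σ (f u - f 0) := by
    rw [map_sub, ← h2, h1]
  rw [e, nrm_map_of_mem_Dq p hσ]
  exact hu f hf

/-- `Ord.exists_max` for the points `u, v` + `Ord.nrm_le_of_translate` (`x := v`, `y := u - v`). -/
theorem small_of_close (C : Ctx p M H) {t : ℝ} {u v : Fin 2 → k}
    (h : ∀ f ∈ H, nrm p (f u - f v) < t) : ∀ f ∈ H, nrm p (f (u - v) - f 0) < t := by
  obtain ⟨f₀, hf₀, hmax⟩ := C.ord.exists_max C.hR u v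
  intro f hf
  have h1 : ∀ g ∈ H, nrm p (g (v + (u - v)) - g v) ≤ nrm p (f₀ u - f₀ v) := by
    intro g hg
    rw [add_sub_cancel]
    exact hmax g hg
  exact lt_of_le_of_lt (C.ord.nrm_le_of_translate C.hR h1 f hf) (h f₀ hf₀)

/-- as `Ord.act_sub_mem_conn`. -/
theorem small_act_sub (C : Ctx p M H) {τ : GQ} (hτ : τ ∈ Iq p) (x : Fin 2 → k) :
    ∀ f ∈ H, nrm p (f ((M τ).mulVec x - x) - f 0) < 1 := by
  apply small_of_close C
  intro f hf
  have h1 : f ((M τ).mulVec x) = τ (f x) := C.ord.equiv f hf τ (Iq_le_Dq p hτ) x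
  rw [h1]
  exact ((mem_Iq_iff p).1 hτ).2 _ (C.ord.nrm_le_one C.hR hf x)

end Small

/-! ### TASK S56/T-Depth-b -/
section Irr

/-- **the depth is constant.**  Let `S := {y | ∀ a f, |f (a y) - f 0| < r}`, `r = |z0|`.  `S` is closed under `+` (`small_add`,
`smul_add`), under `b • ·` (`smul_smul`) and under `M σ`, `σ ∈ D_p` (`small_act`, `Matrix.mulVec_smul`).  The point `x0` of
`T.att` is not in `S` (`a = 1`).  If `y ∈ S`, `y ≠ 0`: `C.irr y` gives `σ` with `w := M σ y` not proportional to `y`;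
`exists_comb`: `x0 = a y + b w ∈ S`, contradiction. -/
theorem eq_zero_of_small (C : Ctx p M H) (T : IsTop p H z0) {y : Fin 2 → k}
    (hy : ∀ a : k, ∀ f ∈ H, nrm p (f (a • y) - f 0) < nrm p z0) : y = 0 := by
  by_contra hy0
  obtain ⟨σ, hσ, hw⟩ := C.irr y hy0
  obtain ⟨f0, hf0, x0, hz⟩ := T.att
  obtain ⟨a, b, hx⟩ := exists_comb hy0 hw x0
  have h1 : ∀ f ∈ H, nrm p (f (a • y) - f 0) < nrm p z0 := hy a
  have h2 : ∀ f ∈ H, nrm p (f (b • (M σ).mulVec y) - f 0) < nrm p z0 := by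
    have := small_act C hσ (hy b)
    rwa [Matrix.mulVec_smul] at this
  have h3 := small_add C h1 h2 f0 hf0
  rw [← hx, ← hz] at h3
  exact lt_irrefl _ h3

/-- `eq_zero_of_small` for `u - v` (`small_of_close`, `smul_sub`). -/
theorem eq_of_close (C : Ctx p M H) (T : IsTop p H z0) {u v : Fin 2 → k}
    (h : ∀ a : k, ∀ f ∈ H, nrm p (f (a • u) - f (a • v)) < nrm p z0) : u = v := by
  have h0 : u - v = 0 := by
    refine eq_zero_of_small C T fun a => ?_
    rw [smul_sub]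
    exact small_of_close C (h a)
  exact sub_eq_zero.1 h0

end Irr

/-! ### TASK S56/T-Depth-c -/
section Bounds

/-- `ω` is ramified at `p ≠ 2`.  Otherwise `ζ` (a primitive `p`-th root of unity, `cyclo_exists_primitiveRoot`) is fixed by `I_p`
(`map_eq_pow_cyE`), so `|1 - ζ| = p^n` (`exists_zpow_of_fixed` in `S56/F/R0.lean`), but `|1 - ζ|^(p-1) = p⁻¹`
(`nrm_one_sub_zeta`, `n = 0`): `n (p-1) = -1`, so `p = 2` (`zpow_right_injective₀`). -/
theorem exists_cyE_ne_one (hp2 : p ≠ 2) : ∃ τ ∈ Iq p, cyE p τ ≠ 1 := by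
  have hp : p.Prime := Fact.out
  have : NeZero p := ⟨hp.ne_zero⟩
  by_contra hcon
  push Not at hcon
  obtain ⟨ζ, hζ⟩ := cyclo_exists_primitiveRoot p
  have hfix : ∀ σ ∈ Iq p, σ (1 - ζ) = 1 - ζ := by
    intro σ hσ
    rw [map_sub, map_one, map_eq_pow_cyE σ hζ.pow_eq_one, hcon σ hσ, pow_one]
  have h0 : 1 - ζ ≠ 0 := sub_ne_zero.2 (hζ.ne_one hp.one_lt).symm
  obtain ⟨n, hn⟩ := exists_zpow_of_fixed hfix h0
  have h1 := nrm_one_sub_zeta (p := p) (n := 0) (ζ := ζ) (by simpa using hζ)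
  rw [hn, pow_zero, one_mul, ← zpow_natCast, ← zpow_mul, ← zpow_neg_one] at h1
  have hp0 : (0 : ℝ) < p := by exact_mod_cast hp.pos
  have hp1 : (p : ℝ) ≠ 1 := by exact_mod_cast hp.one_lt.ne'
  have h2 : n * ((p - 1 : ℕ) : ℤ) = -1 := zpow_right_injective₀ hp0 hp1 h1
  have h3 : ((p - 1 : ℕ) : ℤ) ∣ ((1 : ℕ) : ℤ) := ⟨-n, by push_cast; linarith⟩
  have h4 : p - 1 ∣ 1 := Int.natCast_dvd_natCast.1 h3
  have h5 := Nat.dvd_one.1 h4
  omega

/-- `det (M τ) = (cyE p τ : k)`  (`C.det`, `ZMod.natCast_zmod_val`, `map_natCast`). -/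
theorem det_eq_cyE (C : Ctx p M H) (τ : GQ) : (M τ).det = (cyE p τ : k) := by
  have : NeZero p := ⟨(Fact.out : p.Prime).ne_zero⟩
  rw [C.det, cyE, ← map_natCast (algebraMap (ZMod p) k), ZMod.natCast_zmod_val]

/-- `cyE p τ < p` and `cyE p τ ≠ 0`. -/
theorem cyE_lt (τ : GQ) : cyE p τ < p := by
  have : NeZero p := ⟨(Fact.out : p.Prime).ne_zero⟩
  exact ZMod.val_lt _

theorem cyE_ne_zero (τ : GQ) : cyE p τ ≠ 0 := by
  intro h
  exact Units.ne_zero (cycloChar p τ) ((ZMod.val_eq_zero _).1 h)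

/-- **`r < 1`.**  If `r = 1` (`T.nrm_le_one`): for `τ ∈ I_p` and all `x`, `y := M τ x - x` satisfies the hypothesis of
`eq_zero_of_small` (`a • y = M τ (a x) - a x`, `small_act_sub`), so `M τ = 1` (`Matrix.ext_of_mulVec` / `Matrix.toLin'`),
`det = 1`, `(cyE p τ : k) = 1` with `cyE p τ < p`, so `cyE p τ = 1` (`CharP.cast_eq_iff_mod_eq`-type lemma,
`LinAlg_charP p`), contradicting `exists_cyE_ne_one`. -/
theorem IsTop.nrm_lt_one (T : IsTop p H z0) (C : Ctx p M H) : nrm p z0 < 1 := by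
  have hp : p.Prime := Fact.out
  by_contra hcon
  have h1 : nrm p z0 = 1 := le_antisymm (T.nrm_le_one C) (not_lt.1 hcon)
  obtain ⟨τ, hτ, hτ1⟩ := exists_cyE_ne_one (p := p) C.hp2
  apply hτ1
  have hx : ∀ x : Fin 2 → k, (M τ).mulVec x = x := by
    intro x
    have h2 : (M τ).mulVec x - x = 0 := by
      refine eq_zero_of_small C T fun a f hf => ?_
      rw [h1, smul_sub, ← Matrix.mulVec_smul]
      exact small_act_sub C hτ (a • x) f hf
    exact sub_eq_zero.1 h2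
  have hM : M τ = 1 := by
    ext i j
    have h2 := congrFun (hx (Pi.single j 1)) i
    rw [Matrix.mulVec_single_one] at h2
    rw [Matrix.one_apply, ← Matrix.col_apply (M τ) j i, h2, Pi.single_apply]
  have h3 := det_eq_cyE C τ
  rw [hM, Matrix.det_one] at h3
  have : CharP k p := LinAlg_charP p
  have h4 : ((cyE p τ : ℕ) : k) = ((1 : ℕ) : k) := by rw [← h3, Nat.cast_one]
  exact Nat.ModEq.eq_of_lt_of_lt ((CharP.natCast_eq_natCast k p).1 h4) (cyE_lt τ) hp.one_lt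

/-- `Ord.torsion` at any `x ≠ 0` (`p • x = 0` because `k` has characteristic `p`), `T.le`, `pow_le_pow_left₀`. -/
theorem IsTop.inv_le_pow (T : IsTop p H z0) (C : Ctx p M H) :
    (p : ℝ)⁻¹ ≤ nrm p z0 ^ (p - 1) := by
  have : CharP k p := LinAlg_charP p
  have hx : (![1, 0] : Fin 2 → k) ≠ 0 := by
    intro h
    have := congrFun h 0
    simp at this
  have hpx : p • (![1, 0] : Fin 2 → k) = 0 := by
    rw [← Nat.cast_smul_eq_nsmul k, CharP.cast_eq_zero k p, zero_smul]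
  obtain ⟨f, hf, hle⟩ := C.ord.torsion C.hR hx hpx
  exact hle.trans (pow_le_pow_left₀ (nrm_nonneg p _) (T.le f hf _) _)

end Bounds

end Fermat.Agent.S56.F.Tame

end
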