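/-
S56 / F / Tame / Lin : step (B).  Linearisation modulo norm `< r = |z0|`.
TASKS  S56/T-Lin-a (section Lin: lin_add, lin_act, lin_int; MEDIUM, ~150 lines),
       S56/T-Lin-b (section LinPoly: lin_poly; MEDIUM, ~120 lines),
       S56/T-Lin-c (section Key: key2, key, corollaries; MEDIUM, ~150 lines).

Black boxes: `Depth.lean` (`T.pos C : 0 < r`, `T.nrm_lt_one C : r < 1`, `T.le`, `T.att`, `eq_of_close`), `Theta.lean`
(`map_sub_th_mul_lt`, `nrm_th`, `nrm_aeval_le_one`), `S56/F/Basic.lean` (`Ord.second_order`, `Ord.nsmul_estimate`).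
Write `L f x := f x - f 0`; `|L f x| ≤ r` (`T.le`).
-/
import Fermat.Agent.S56.F.Tame.Depth

set_option autoImplicit false

noncomputable section

namespace Fermat.Agent.S56.F.Tame

open Fermat.Agent.S55.Places ExtCitation Polynomial

variable {p : ℕ} [Fact p.Prime] {k : Type} [Field k] [Algebra (ZMod p) k] {M : GQ →* M2 k}
  {R : Subring Qbar} {H : Subalgebra R ((Fin 2 → k) → Qbar)} {z0 : Qbar}

/-! ### TASK S56/T-Lin-a -/
section Lin

/-- `Ord.second_order` with `t = s = r`: the error is `≤ r² < r`. -/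
theorem lin_add (C : Ctx p M H) (T : IsTop p H z0) : ∀ f ∈ H, ∀ x y : Fin 2 → k,
    nrm p ((f (x + y) - f 0) - ((f x - f 0) + (f y - f 0))) < nrm p z0 := by
  intro f hf x y
  have hr0 := T.pos C
  have hr1 := T.nrm_lt_one C
  have h1 := C.ord.second_order (p := p) (t := nrm p z0) (s := nrm p z0) (x := x) (y := y)
    (fun g hg => T.le g hg x) (fun g hg => T.le g hg y) f hf
  have e : (f (x + y) - f 0) - ((f x - f 0) + (f y - f 0)) = f (x + y) - f x - f y + f 0 := by ring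
  rw [e]
  refine h1.trans_lt ?_
  calc nrm p z0 * nrm p z0 < 1 * nrm p z0 := mul_lt_mul_of_pos_right hr1 hr0
    _ = nrm p z0 := one_mul _

/-- `f (τ x) - f 0 = τ (f x - f 0)` (`C.ord.equiv` with `Iq_le_Dq`, `Matrix.mulVec_zero`), then `map_sub_th_mul_lt`. -/
theorem lin_act (C : Ctx p M H) (T : IsTop p H z0) {τ : GQ} (hτ : τ ∈ Iq p) :
    ∀ f ∈ H, ∀ x : Fin 2 → k,
      nrm p ((f ((M τ).mulVec x) - f 0) - th τ z0 * (f x - f 0)) < nrm p z0 := by
  intro f hf x
  have hτD : τ ∈ Dq p := Iq_le_Dq p hτ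
  have h1 : f ((M τ).mulVec x) = τ (f x) := C.ord.equiv f hf τ hτD x
  have h2 : f 0 = τ (f 0) := by
    have := C.ord.equiv f hf τ hτD 0
    rwa [show resAct M τ 0 = 0 from Matrix.mulVec_zero _] at this
  have e : f ((M τ).mulVec x) - f 0 = τ (f x - f 0) := by
    rw [map_sub, ← h1, ← h2]
  rw [e]
  exact map_sub_th_mul_lt hτ (T.ne_zero C) (T.le f hf x)

/-- for `a = n ∈ ℕ`: `Ord.nsmul_estimate` (`(n : k) • x = n • x`: `Nat.cast_smul_eq_nsmul`), error `≤ r² < r`.
For general `a`: `n := (a % p).toNat`, `(a : k) = (n : k)` (characteristic `p`: `LinAlg_charP p`, `CharP.intCast_eq_intCast`), and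
`|(a : Qbar) - n| ≤ |p| < 1` (`a - n = p * b`, `nrm_natCast_self`, `nrm_intCast_le_one`), so
`|(a - n) (f x - f 0)| < r`. -/
theorem lin_int (C : Ctx p M H) (T : IsTop p H z0) (a : ℤ) : ∀ f ∈ H, ∀ x : Fin 2 → k,
    nrm p ((f ((a : k) • x) - f 0) - (a : Qbar) * (f x - f 0)) < nrm p z0 := by
  intro f hf x
  have hr0 := T.pos C
  have hr1 := T.nrm_lt_one C
  have hp : p.Prime := Fact.out
  have hchar : CharP k p := LinAlg_charP p
  -- natural numbers
  have hnat : ∀ n : ℕ, nrm p ((f ((n : k) • x) - f 0) - (n : Qbar) * (f x - f 0)) < nrm p z0 := by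
    intro n
    have h1 := C.ord.nsmul_estimate (p := p) (t := nrm p z0) hr1.le (x := x)
      (fun g hg => T.le g hg x) n f hf
    rw [Nat.cast_smul_eq_nsmul]
    refine h1.trans_lt ?_
    calc nrm p z0 * nrm p z0 < 1 * nrm p z0 := mul_lt_mul_of_pos_right hr1 hr0
      _ = nrm p z0 := one_mul _
  have hp0 : (0 : ℤ) < p := by exact_mod_cast hp.pos
  have hmod0 : 0 ≤ a % (p : ℤ) := Int.emod_nonneg a hp0.ne'
  obtain ⟨n, hn⟩ : ∃ n : ℕ, (n : ℤ) = a % (p : ℤ) := ⟨(a % (p : ℤ)).toNat, Int.toNat_of_nonneg hmod0⟩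
  obtain ⟨b, hb⟩ : ∃ b : ℤ, a = (n : ℤ) + (p : ℤ) * b := ⟨a / p, by rw [hn]; exact (Int.emod_add_mul_ediv a p).symm⟩
  have hak : (a : k) = (n : k) := by
    rw [hb]
    push_cast
    rw [CharP.cast_eq_zero k p, zero_mul, add_zero]
  have e : (f ((a : k) • x) - f 0) - (a : Qbar) * (f x - f 0) =
      ((f ((n : k) • x) - f 0) - (n : Qbar) * (f x - f 0)) - (p : Qbar) * ((b : Qbar) * (f x - f 0)) := by
    rw [hak, hb]
    push_cast
    ring
  rw [e]
  refine (nrm_sub_le_max p _ _).trans_lt (max_lt (hnat n) ?_)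
  rw [nrm_mul, nrm_mul, nrm_natCast_self]
  have hpinv : ((p : ℝ))⁻¹ < 1 := by
    apply inv_lt_one_of_one_lt₀
    exact_mod_cast hp.one_lt
  have h2 : nrm p (b : Qbar) * nrm p (f x - f 0) ≤ nrm p z0 := by
    calc nrm p (b : Qbar) * nrm p (f x - f 0) ≤ 1 * nrm p z0 :=
          mul_le_mul (nrm_intCast_le_one p b) (T.le f hf x) (nrm_nonneg p _) zero_le_one
      _ = nrm p z0 := one_mul _
  calc ((p : ℝ))⁻¹ * (nrm p (b : Qbar) * nrm p (f x - f 0)) ≤ ((p : ℝ))⁻¹ * nrm p z0 :=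
        mul_le_mul_of_nonneg_left h2 (by positivity)
    _ < 1 * nrm p z0 := mul_lt_mul_of_pos_right hpinv hr0
    _ = nrm p z0 := one_mul _

end Lin

/-! ### TASK S56/T-Lin-b -/
section LinPoly

/-- **linearisation.**  `Polynomial.induction_on Q` for the statement `∀ f ∈ H, ∀ x, ..`:
* `C a`: `aeval (M τ) (C a) = algebraMap ℤ (M2 k) a`, whose `mulVec x` is `(a : k) • x` (`Matrix.algebraMap_eq_diagonal` /
  `Matrix.smul_one_eq_diagonal`, `Matrix.smul_mulVec`, `Matrix.one_mulVec`; `eq_intCast`); `lin_int`.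
* `P + Q`: `Matrix.add_mulVec`, `lin_add`, ultrametric inequality.
* `C a * X^(n+1) = (C a * X^n) * X`: `aeval` is multiplicative, `Matrix.mulVec_mulVec`; the induction hypothesis at
  `x' := (M τ).mulVec x`, then `lin_act` multiplied by `aeval c (C a * X^n)`, of norm `≤ 1` (`nrm_aeval_le_one`, `nrm_th`). -/
theorem lin_poly (C : Ctx p M H) (T : IsTop p H z0) {τ : GQ} (hτ : τ ∈ Iq p) (Q : ℤ[X]) :
    ∀ f ∈ H, ∀ x : Fin 2 → k,
      nrm p ((f ((aeval (M τ) Q).mulVec x) - f 0) - aeval (th τ z0) Q * (f x - f 0)) < nrm p z0 := by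
  have hc1 : nrm p (th τ z0) ≤ 1 := (nrm_th (Iq_le_Dq p hτ) (T.ne_zero C)).le
  induction Q using Polynomial.induction_on with
  | C a =>
    intro f hf x
    rw [aeval_C, aeval_C, eq_intCast, eq_intCast, Matrix.intCast_mulVec]
    exact lin_int C T a f hf x
  | add P Q hP hQ =>
    intro f hf x
    rw [map_add, map_add, Matrix.add_mulVec]
    have e : (f ((aeval (M τ) P).mulVec x + (aeval (M τ) Q).mulVec x) - f 0)
        - (aeval (th τ z0) P + aeval (th τ z0) Q) * (f x - f 0)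
        = ((f ((aeval (M τ) P).mulVec x + (aeval (M τ) Q).mulVec x) - f 0)
            - ((f ((aeval (M τ) P).mulVec x) - f 0) + (f ((aeval (M τ) Q).mulVec x) - f 0)))
          + (((f ((aeval (M τ) P).mulVec x) - f 0) - aeval (th τ z0) P * (f x - f 0))
            + ((f ((aeval (M τ) Q).mulVec x) - f 0) - aeval (th τ z0) Q * (f x - f 0))) := by
      ring
    rw [e]
    exact (nrm_add_le_max p _ _).trans_lt (max_lt (lin_add C T f hf _ _)
      ((nrm_add_le_max p _ _).trans_lt (max_lt (hP f hf x) (hQ f hf x))))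
  | monomial n a ih =>
    intro f hf x
    have e1 : (Polynomial.C a * X ^ (n + 1) : ℤ[X]) = (Polynomial.C a * X ^ n) * X := by
      rw [pow_succ, mul_assoc]
    rw [e1, map_mul (aeval (M τ)) (Polynomial.C a * X ^ n) X,
      map_mul (aeval (th τ z0)) (Polynomial.C a * X ^ n) X, aeval_X, aeval_X,
      ← Matrix.mulVec_mulVec]
    have e : (f ((aeval (M τ) (Polynomial.C a * X ^ n)).mulVec ((M τ).mulVec x)) - f 0)
        - aeval (th τ z0) (Polynomial.C a * X ^ n) * th τ z0 * (f x - f 0)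
        = ((f ((aeval (M τ) (Polynomial.C a * X ^ n)).mulVec ((M τ).mulVec x)) - f 0)
            - aeval (th τ z0) (Polynomial.C a * X ^ n) * (f ((M τ).mulVec x) - f 0))
          + aeval (th τ z0) (Polynomial.C a * X ^ n)
            * ((f ((M τ).mulVec x) - f 0) - th τ z0 * (f x - f 0)) := by
      ring
    rw [e]
    refine (nrm_add_le_max p _ _).trans_lt (max_lt (ih f hf _) ?_)
    rw [nrm_mul]
    calc nrm p (aeval (th τ z0) (Polynomial.C a * X ^ n))
          * nrm p ((f ((M τ).mulVec x) - f 0) - th τ z0 * (f x - f 0))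
        ≤ 1 * nrm p ((f ((M τ).mulVec x) - f 0) - th τ z0 * (f x - f 0)) :=
          mul_le_mul_of_nonneg_right (nrm_aeval_le_one hc1 _) (nrm_nonneg p _)
      _ = nrm p ((f ((M τ).mulVec x) - f 0) - th τ z0 * (f x - f 0)) := one_mul _
      _ < nrm p z0 := lin_act C T hτ f hf x

end LinPoly

/-! ### TASK S56/T-Lin-c -/
section Key

/-- `aeval (M τ) Q` commutes with scalars. -/
theorem aeval_mulVec_smul (τ : GQ) (Q : ℤ[X]) (a : k) (x : Fin 2 → k) :
    (aeval (M τ) Q).mulVec (a • x) = a • (aeval (M τ) Q).mulVec x :=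
  Matrix.mulVec_smul _ _ _

/-- (task T-Lin-c, helper) `|a| < 1`, `|b| ≤ r`, `0 < r`: `|a b| < r`. -/
theorem LinC_nrm_mul_lt {a b : Qbar} {r : ℝ} (ha : nrm p a < 1) (hb : nrm p b ≤ r) (hr : 0 < r) :
    nrm p (a * b) < r := by
  rw [nrm_mul]
  calc nrm p a * nrm p b ≤ nrm p a * r := mul_le_mul_of_nonneg_left hb (nrm_nonneg p _)
    _ < 1 * r := mul_lt_mul_of_pos_right ha hr
    _ = r := one_mul r

/-- **KEY 2.**  For all `x`: `u := M σ x`, `v := Q(M τ) x`.  For `a ∈ k`, `f ∈ H`: `a • u = M σ (a x)`, `a • v = Q(M τ)(a x)`, and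
`f (a u) - f (a v) = [L f (σ (a x)) - th σ z0 · L f (a x)] + [(th σ z0 - Q(c)) L f (a x)] - [L f (Q(M τ)(a x)) - Q(c) L f (a x)]`:
three terms of norm `< r` (`lin_act`, hypothesis + `T.le` + `T.pos`, `lin_poly`).  `eq_of_close`; then `Matrix.ext_of_mulVec`-type
extensionality (`Matrix.toLin'` injective, or evaluate at `Pi.single j 1`: `Matrix.mulVec_single_one`). -/
theorem key2 (C : Ctx p M H) (T : IsTop p H z0) {σ τ : GQ} (hσ : σ ∈ Iq p) (hτ : τ ∈ Iq p)
    (Q : ℤ[X]) (h : nrm p (th σ z0 - aeval (th τ z0) Q) < 1) : M σ = aeval (M τ) Q := by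
  apply Matrix.mulVec_injective
  funext x
  refine eq_of_close C T fun a f hf => ?_
  rw [← Matrix.mulVec_smul, ← Matrix.mulVec_smul]
  have e : f ((M σ).mulVec (a • x)) - f ((aeval (M τ) Q).mulVec (a • x))
      = ((f ((M σ).mulVec (a • x)) - f 0) - th σ z0 * (f (a • x) - f 0))
        + ((th σ z0 - aeval (th τ z0) Q) * (f (a • x) - f 0)
          - ((f ((aeval (M τ) Q).mulVec (a • x)) - f 0)
            - aeval (th τ z0) Q * (f (a • x) - f 0))) := by
    ring
  rw [e]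
  exact (nrm_add_le_max p _ _).trans_lt (max_lt (lin_act C T hσ f hf _)
    ((nrm_sub_le_max p _ _).trans_lt (max_lt (LinC_nrm_mul_lt h (T.le f hf _) (T.pos C))
      (lin_poly C T hτ Q f hf _))))

/-- **KEY.**  `←`: `|L f (Q(M τ)(a x))| < r` by `lin_poly` and `|Q(c)| < 1`; `eq_of_close` with `v = 0` (or `eq_zero_of_small`).
`→`: `lin_poly` at the pair `(f0, x0)` of `T.att`: `|Q(c) z0| < r` (`Matrix.zero_mulVec`), so `|Q(c)| < 1`. -/
theorem key (C : Ctx p M H) (T : IsTop p H z0) {τ : GQ} (hτ : τ ∈ Iq p) (Q : ℤ[X]) :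
    aeval (M τ) Q = 0 ↔ nrm p (aeval (th τ z0) Q) < 1 := by
  constructor
  · intro h0
    obtain ⟨f0, hf0, x0, hz0⟩ := T.att
    have h1 := lin_poly C T hτ Q f0 hf0 x0
    rw [h0, Matrix.zero_mulVec, sub_self, zero_sub, nrm_neg, ← hz0, nrm_mul] at h1
    by_contra hge
    rw [not_lt] at hge
    have h2 : 1 * nrm p z0 ≤ nrm p (aeval (th τ z0) Q) * nrm p z0 :=
      mul_le_mul_of_nonneg_right hge (nrm_nonneg p _)
    rw [one_mul] at h2
    exact absurd h1 (not_lt.mpr h2)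
  · intro h
    apply Matrix.mulVec_injective
    funext x
    rw [Matrix.zero_mulVec]
    refine eq_zero_of_small C T fun a f hf => ?_
    rw [← Matrix.mulVec_smul]
    have e : f ((aeval (M τ) Q).mulVec (a • x)) - f 0
        = ((f ((aeval (M τ) Q).mulVec (a • x)) - f 0) - aeval (th τ z0) Q * (f (a • x) - f 0))
          + aeval (th τ z0) Q * (f (a • x) - f 0) := by
      ring
    rw [e]
    exact (nrm_add_le_max p _ _).trans_lt (max_lt (lin_poly C T hτ Q f hf _)
      (LinC_nrm_mul_lt h (T.le f hf _) (T.pos C)))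

/-- `key` for `Q = X - C n`. -/
theorem M_eq_natCast_iff (C : Ctx p M H) (T : IsTop p H z0) {τ : GQ} (hτ : τ ∈ Iq p) (n : ℕ) :
    M τ = (n : M2 k) ↔ nrm p (th τ z0 - (n : Qbar)) < 1 := by
  have h := key C T hτ (X - Polynomial.C (n : ℤ))
  rw [map_sub, map_sub, aeval_X, aeval_X, aeval_C, aeval_C, eq_intCast, eq_intCast,
    Int.cast_natCast, Int.cast_natCast, sub_eq_zero] at h
  exact h

/-- `key` for `Q = X ^ n - 1`. -/
theorem M_pow_eq_one_iff (C : Ctx p M H) (T : IsTop p H z0) {τ : GQ} (hτ : τ ∈ Iq p) (n : ℕ) :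
    M τ ^ n = 1 ↔ nrm p (th τ z0 ^ n - 1) < 1 := by
  have h := key C T hτ (X ^ n - 1)
  rw [map_sub, map_sub, map_pow, map_pow, aeval_X, aeval_X, map_one, map_one, sub_eq_zero] at h
  exact h

end Key

end Fermat.Agent.S56.F.Tame

end
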