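/-
S56 / F / Tame / Frob : step (C).  Frobenius conjugation; `th τ z0 ^ (p+1) ≡ ω(τ)`.
TASKS  S56/T-Frob-a (M_conj, trace_pow, exists_quadratic; MEDIUM, ~120 lines),
       S56/T-Frob-b (th_pow_succ, th_pow_e, M_pow_e; MEDIUM, ~150 lines).
Black boxes: `Lin.lean` (`key`, `key2`, `M_eq_natCast_iff`, `M_pow_eq_one_iff`), `Theta.lean`, `LinAlg.lean`, `Depth.lean`
(`det_eq_cyE`, `cyE_lt`, `cyE_ne_zero`), `Char_exists_natCast` (`S56/F/Char.lean`).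
-/
import Fermat.Agent.S56.F.Tame.Lin

set_option autoImplicit false

noncomputable section

namespace Fermat.Agent.S56.F.Tame

open Fermat.Agent.S55.Places ExtCitation Polynomial

variable {p : ℕ} [Fact p.Prime] {k : Type} [Field k] [Algebra (ZMod p) k] {M : GQ →* M2 k}
  {R : Subring Qbar} {H : Subalgebra R ((Fin 2 → k) → Qbar)} {z0 : Qbar}

/-! ### TASK S56/T-Frob-a -/

/-- `key2` with `σ := φ τ φ⁻¹ ∈ I_p` (`Iq_conj_mem p hφ.1 hτ`), `Q := X ^ p` (`aeval_X_pow`), `th_frob`. -/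
theorem M_conj (C : Ctx p M H) (T : IsTop p H z0) {φ : GQ} (hφ : IsFrob p φ) {τ : GQ}
    (hτ : τ ∈ Iq p) : M (φ * τ * φ⁻¹) = M τ ^ p := by
  have h := key2 C T (Iq_conj_mem p hφ.1 hτ) hτ (X ^ p)
    (by rw [map_pow, aeval_X]; exact th_frob hφ hτ (T.ne_zero C))
  rwa [map_pow, aeval_X] at h

/-- `(cyE p τ : k) ≠ 0` (`cyE_lt`, `cyE_ne_zero`, `CharP.cast_eq_zero_iff k p`, `Nat.le_of_dvd`). -/
theorem cyE_cast_ne_zero (τ : GQ) : (cyE p τ : k) ≠ 0 := by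
  have := LinAlg_charP (k := k) p
  rw [Ne, CharP.cast_eq_zero_iff k p]
  intro hd
  exact absurd (Nat.le_of_dvd (Nat.pos_of_ne_zero (cyE_ne_zero τ)) hd) (not_le.2 (cyE_lt τ))

/-- `trace_pow_eq p` with `g := M φ`, `g' := M φ⁻¹` (`exists_isFrob p`, `map_mul`, `M_conj`), `det_eq_cyE`,
`(n : k)^p = n` (`frobenius_natCast` with `LinAlg_charP p`). -/
theorem trace_pow (C : Ctx p M H) (T : IsTop p H z0) {τ : GQ} (hτ : τ ∈ Iq p) :
    (M τ).trace ^ p = (M τ).trace := by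
  obtain ⟨φ, hφ⟩ := exists_isFrob p
  have := LinAlg_charP (k := k) p
  refine trace_pow_eq p (g := M φ) (g' := M φ⁻¹) ?_ ?_ ?_ ?_
  · rw [← map_mul, mul_inv_cancel, map_one]
  · rw [← map_mul, ← map_mul]
    exact M_conj C T hφ hτ
  · rw [det_eq_cyE C]
    exact cyE_cast_ne_zero τ
  · rw [det_eq_cyE C]
    exact map_natCast (frobenius k p) _

/-- `exists_natCast_of_pow_eq p`, `sq_eq`, `det_eq_cyE`; `aeval` of the polynomial is
`T^2 - (t : M2 k) * T + (d : M2 k)` (`simp [aeval_def]`/`map_sub, map_add, map_mul, aeval_X, aeval_C, eq_intCast`);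
`(n : M2 k) * T = (n : k) • T` (`Matrix.natCast_mul`? or `Nat.cast_smul_eq_nsmul`, `nsmul_eq_mul`). -/
theorem exists_quadratic (C : Ctx p M H) (T : IsTop p H z0) {τ : GQ} (hτ : τ ∈ Iq p) :
    ∃ t : ℕ, aeval (M τ) (X ^ 2 - Polynomial.C (t : ℤ) * X + Polynomial.C (cyE p τ : ℤ) : ℤ[X]) = 0 := by
  obtain ⟨t, ht⟩ := exists_natCast_of_pow_eq p (trace_pow C T hτ)
  refine ⟨t, ?_⟩
  have h := sq_eq (M τ)
  rw [ht, det_eq_cyE C] at h
  simp only [map_add, map_sub, map_mul, map_pow, aeval_X,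
    map_natCast]
  rw [h, Nat.cast_smul_eq_nsmul, Nat.cast_smul_eq_nsmul, nsmul_eq_mul, nsmul_eq_mul, mul_one]
  abel

/-! ### TASK S56/T-Frob-b -/

/-- an integer divisible by `p` has norm `< 1`. -/
theorem FrobB_nrm_lt_of_dvd {z : ℤ} (h : (p : ℤ) ∣ z) : nrm p (z : Qbar) < 1 := by
  obtain ⟨b, rfl⟩ := h
  have hp1 : (1 : ℝ) < p := by exact_mod_cast (Fact.out : p.Prime).one_lt
  have hinv : ((p : ℝ))⁻¹ < 1 := inv_lt_one_of_one_lt₀ hp1
  have hpos : (0 : ℝ) < (p : ℝ)⁻¹ := inv_pos.2 (by linarith)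
  rw [Int.cast_mul, Int.cast_natCast, nrm_mul, nrm_natCast_self]
  calc (p : ℝ)⁻¹ * nrm p (b : Qbar) ≤ (p : ℝ)⁻¹ * 1 :=
        mul_le_mul_of_nonneg_left (nrm_intCast_le_one p b) hpos.le
    _ < 1 := by rw [mul_one]; exact hinv

/-- **`c^(p+1) ≡ ω(τ)`**, `c := th τ z0`, `|c| = 1` (`nrm_th`), `d := cyE p τ`, `Q := X² - t X + d` (`exists_quadratic`).
`key`: `|Q(c)| < 1`; `nrm_aeval_pow_lt`: `|Q(c^p)| < 1`.  `Q(c^p) - Q(c) = (c^p - c)(c^p + c - t)`, so one of the two factors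
(both of norm `≤ 1`) has norm `< 1` (`nrm_mul`).
* `|c^p + c - t| < 1`:  `c^(p+1) - d = c (c^p + c - t) - Q(c)`.
* `|c^p - c| < 1`: `Char_exists_natCast` gives `n` with `|c - n| < 1`; `M_eq_natCast_iff`: `M τ = n`, so `det = n²` in `k`
  (`Matrix.det_natCast`? or `Matrix.det_fin_two`), `(d : k) = (n^2 : k)`, so `p ∣ d - n²` in `ℤ` (`CharP.intCast_eq_zero_iff`) and `|d - n²| < 1`;
  `c^(p+1) - d = c (c^p - c) + (c² - n²) + (n² - d)`. -/
theorem th_pow_succ (C : Ctx p M H) (T : IsTop p H z0) {τ : GQ} (hτ : τ ∈ Iq p) :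
    nrm p (th τ z0 ^ (p + 1) - (cyE p τ : Qbar)) < 1 := by
  have hz0 : z0 ≠ 0 := T.ne_zero C
  set c : Qbar := th τ z0 with hc
  set d : ℕ := cyE p τ with hd
  have hc1 : nrm p c = 1 := nrm_th (Iq_le_Dq p hτ) hz0
  obtain ⟨t, ht⟩ := exists_quadratic C T hτ
  have hQ := (key C T hτ _).1 ht
  have hQp := nrm_aeval_pow_lt hc1.le _ hQ
  have eQ : ∀ x : Qbar, aeval x (X ^ 2 - Polynomial.C (t : ℤ) * X + Polynomial.C (d : ℤ) : ℤ[X])
      = x ^ 2 - (t : Qbar) * x + (d : Qbar) := by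
    intro x
    simp
  rw [← hd, eQ] at hQ hQp
  have hcp : nrm p (c ^ p) ≤ 1 := by rw [nrm_pow, hc1, one_pow]
  have hA : nrm p (c ^ p - c) ≤ 1 := (nrm_sub_le_max p _ _).trans (max_le hcp hc1.le)
  have hB : nrm p (c ^ p + c - (t : Qbar)) ≤ 1 :=
    (nrm_sub_le_max p _ _).trans (max_le ((nrm_add_le_max p _ _).trans (max_le hcp hc1.le))
      (nrm_natCast_le_one p t))
  have hAB : nrm p (c ^ p - c) * nrm p (c ^ p + c - (t : Qbar)) < 1 := by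
    rw [← nrm_mul]
    have e : (c ^ p - c) * (c ^ p + c - (t : Qbar))
        = ((c ^ p) ^ 2 - (t : Qbar) * c ^ p + (d : Qbar)) - (c ^ 2 - (t : Qbar) * c + (d : Qbar)) := by
      ring
    rw [e]
    exact (nrm_sub_le_max p _ _).trans_lt (max_lt hQp hQ)
  by_cases hB1 : nrm p (c ^ p + c - (t : Qbar)) < 1
  · have e : c ^ (p + 1) - (d : Qbar)
        = c * (c ^ p + c - (t : Qbar)) - (c ^ 2 - (t : Qbar) * c + (d : Qbar)) := by ring
    rw [e]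
    refine (nrm_sub_le_max p _ _).trans_lt (max_lt ?_ hQ)
    rw [nrm_mul, hc1, one_mul]
    exact hB1
  · have hB2 : nrm p (c ^ p + c - (t : Qbar)) = 1 := le_antisymm hB (not_lt.1 hB1)
    rw [hB2, mul_one] at hAB
    obtain ⟨n, hn⟩ := Char_exists_natCast hc1.le hAB
    have hM : M τ = (n : M2 k) := (M_eq_natCast_iff C T hτ n).2 hn
    have hdet := det_eq_cyE C τ
    rw [hM, ← hd] at hdet
    have hdet2 : ((n : M2 k)).det = (n : k) ^ 2 := by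
      rw [Matrix.det_fin_two]
      simp [Matrix.natCast_apply, sq]
    rw [hdet2] at hdet
    have hchar : CharP k p := LinAlg_charP p
    have hdvd : (p : ℤ) ∣ ((n : ℤ) ^ 2 - (d : ℤ)) := by
      rw [← CharP.intCast_eq_zero_iff k p]
      push_cast
      rw [hdet, sub_self]
    have h3 := FrobB_nrm_lt_of_dvd (p := p) hdvd
    push_cast at h3
    have h2 : nrm p (c ^ 2 - (n : Qbar) ^ 2) < 1 :=
      nrm_pow_sub_pow_lt_one hc1.le (nrm_natCast_le_one p n) 2 hn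
    have e : c ^ (p + 1) - (d : Qbar)
        = c * (c ^ p - c) + ((c ^ 2 - (n : Qbar) ^ 2) + ((n : Qbar) ^ 2 - (d : Qbar))) := by ring
    rw [e]
    refine (nrm_add_le_max p _ _).trans_lt (max_lt ?_
      ((nrm_add_le_max p _ _).trans_lt (max_lt h2 h3)))
    rw [nrm_mul, hc1, one_mul]
    exact hAB

/-- `p² - 1 = (p+1)(p-1)`; `nrm_pow_sub_pow_lt_one` from `th_pow_succ`; `d^(p-1) ≡ 1` mod `p` (`ZMod.pow_card_sub_one_eq_one`,
`(ZMod.natCast_eq_natCast_iff ..)`/`Nat.ModEq`, so `d^(p-1) - 1 = p * b` in `ℤ`). -/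
theorem th_pow_e (C : Ctx p M H) (T : IsTop p H z0) {τ : GQ} (hτ : τ ∈ Iq p) :
    nrm p (th τ z0 ^ (p ^ 2 - 1) - 1) < 1 := by
  have hz0 : z0 ≠ 0 := T.ne_zero C
  have hc1 : nrm p (th τ z0) = 1 := nrm_th (Iq_le_Dq p hτ) hz0
  have hp1 : 1 ≤ p := (Fact.out : p.Prime).one_lt.le
  have hexp : p ^ 2 - 1 = (p + 1) * (p - 1) := by
    obtain ⟨m, rfl⟩ : ∃ m, p = m + 1 := ⟨p - 1, by omega⟩
    have : (m + 1) ^ 2 = (m + 1 + 1) * m + 1 := by ring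
    rw [this]
    simp
  have h1 : nrm p ((th τ z0 ^ (p + 1)) ^ (p - 1) - ((cyE p τ : ℕ) : Qbar) ^ (p - 1)) < 1 :=
    nrm_pow_sub_pow_lt_one (by rw [nrm_pow, hc1, one_pow]) (nrm_natCast_le_one p _) (p - 1)
      (th_pow_succ C T hτ)
  have hd0 : ((cyE p τ : ℕ) : ZMod p) ≠ 0 := by
    rw [Ne, ZMod.natCast_eq_zero_iff]
    intro hdvd
    exact absurd (Nat.le_of_dvd (Nat.pos_of_ne_zero (cyE_ne_zero τ)) hdvd) (not_le.2 (cyE_lt τ))
  have hdvd : (p : ℤ) ∣ ((cyE p τ : ℤ) ^ (p - 1) - 1) := by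
    rw [← CharP.intCast_eq_zero_iff (ZMod p) p]
    push_cast
    rw [ZMod.pow_card_sub_one_eq_one hd0, sub_self]
  have h2 := FrobB_nrm_lt_of_dvd (p := p) hdvd
  push_cast at h2
  have e : th τ z0 ^ (p ^ 2 - 1) - 1
      = ((th τ z0 ^ (p + 1)) ^ (p - 1) - ((cyE p τ : ℕ) : Qbar) ^ (p - 1))
        + (((cyE p τ : ℕ) : Qbar) ^ (p - 1) - 1) := by
    rw [hexp, pow_mul]
    ring
  rw [e]
  exact (nrm_add_le_max p _ _).trans_lt (max_lt h1 h2)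

theorem M_pow_e (C : Ctx p M H) (T : IsTop p H z0) {τ : GQ} (hτ : τ ∈ Iq p) :
    M τ ^ (p ^ 2 - 1) = 1 :=
  (M_pow_eq_one_iff C T hτ _).2 (th_pow_e C T hτ)

end Fermat.Agent.S56.F.Tame

end
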