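/-
S56 / F / Tame / Trace : step (D).  Elements with trivial tame symbol in a tame extension of `Qbar^I` have norm in `p^ℤ`.
TASKS  S56/T-Trace-a (card_not_dvd, nrm_sum_lt, nrm_zpow_of_tame; MEDIUM, ~200 lines; only `S55/Places` + `F/R0`),
       S56/T-Trace-b (finite_quot, fixed_z0, fixed_zeta, exists_zpow_z1; MEDIUM, ~150 lines).
-/
import Fermat.Agent.S56.F.Tame.Frob
import Fermat.Agent.S55.Places.Unram

set_option autoImplicit false

noncomputable section

namespace Fermat.Agent.S56.F.Tame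

open Fermat.Agent.S55.Places ExtCitation Polynomial

variable {p : ℕ} [Fact p.Prime]

/-! ### TASK S56/T-Trace-a -/

/-- Cauchy (`exists_prime_orderOf_dvd_card`) in the quotient GROUP `I ⧸ N.subgroupOf I` (normal: `inferInstance`): an element `x = mk τ`
of order `p` satisfies `x^(p²-1) = mk (τ^(p²-1)) = 1`, so `p ∣ p² - 1` (`orderOf_dvd_of_pow_eq_one`), absurd. -/
theorem card_not_dvd (N : Subgroup GQ) [N.Normal] [Finite (Iq p ⧸ N.subgroupOf (Iq p))]
    (hexp : ∀ τ ∈ Iq p, τ ^ (p ^ 2 - 1) ∈ N) : ¬ p ∣ Nat.card (Iq p ⧸ N.subgroupOf (Iq p)) := by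
  intro hdvd
  have hp : p.Prime := Fact.out
  obtain ⟨x, hx⟩ := exists_prime_orderOf_dvd_card' (G := Iq p ⧸ N.subgroupOf (Iq p)) p hdvd
  induction x using QuotientGroup.induction_on with
  | H τ =>
    have h1 : ((τ : Iq p ⧸ N.subgroupOf (Iq p))) ^ (p ^ 2 - 1) = 1 := by
      rw [← QuotientGroup.mk_pow, QuotientGroup.eq_one_iff, Subgroup.mem_subgroupOf]
      exact hexp τ τ.2
    have h2 : p ∣ p ^ 2 - 1 := by
      have := orderOf_dvd_of_pow_eq_one h1
      rwa [hx] at this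
    have h3 : p ∣ p ^ 2 := dvd_pow_self p two_ne_zero
    have h4 : 1 ≤ p ^ 2 := Nat.one_le_pow _ _ hp.pos
    have h5 : p ∣ 1 := by
      have := (Nat.dvd_sub h3 h2)
      rwa [Nat.sub_sub_self h4] at this
    exact hp.one_lt.ne' (Nat.dvd_one.mp h5)

/-- `Finset.induction_on`, `nrm_add_le_max`, `max_lt`. -/
theorem nrm_sum_lt {ι : Type*} (s : Finset ι) (f : ι → Qbar) {c : ℝ} (hc : 0 < c)
    (h : ∀ i ∈ s, nrm p (f i) < c) : nrm p (∑ i ∈ s, f i) < c := by
  classical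
  induction s using Finset.induction_on with
  | empty =>
    rw [Finset.sum_empty, nrm_zero]
    exact hc
  | insert a s ha ih =>
    rw [Finset.sum_insert ha]
    refine (nrm_add_le_max p _ _).trans_lt (max_lt (h a (Finset.mem_insert_self a s)) ?_)
    exact ih fun i hi => h i (Finset.mem_insert_of_mem hi)

/-- **trace argument.**  `W := Iq p`, `W' := N ⊓ Iq p` (`Subgroup.inf_subgroupOf_right : (N ⊓ W).subgroupOf W = N.subgroupOf W`), `z ∈ Fix W'`
(`mem_Fix_iff`).  `y := Unram.tr W W' z = ∑_c (out c) z ∈ Fix W` (`Unram.tr_mem`).  `y = z * ∑_c th (out c) z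
= z * (n + ∑_c (th (out c) z - 1))`, `n = card`, `|n| = 1` (`card_not_dvd`, `nrm_natCast_eq_one`), the sum has norm `< 1` (`nrm_sum_lt`), so
`|y| = |z|` (`nrm_add_eq_max_of_ne`).  `exists_zpow_of_fixed` (`S56/F/R0.lean`) for `y`. -/
theorem nrm_zpow_of_tame (N : Subgroup GQ) [N.Normal] [Finite (Iq p ⧸ N.subgroupOf (Iq p))]
    (hexp : ∀ τ ∈ Iq p, τ ^ (p ^ 2 - 1) ∈ N) {z : Qbar} (hz0 : z ≠ 0)
    (hfix : ∀ g ∈ Iq p, g ∈ N → g z = z) (hθ : ∀ τ ∈ Iq p, nrm p (th τ z - 1) < 1) :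
    ∃ n : ℤ, nrm p z = (p : ℝ) ^ n := by
  classical
  have hp : p.Prime := Fact.out
  have hfin : Finite (Iq p ⧸ (N ⊓ Iq p).subgroupOf (Iq p)) := by
    rw [Subgroup.inf_subgroupOf_right]
    infer_instance
  let _ : Fintype (Iq p ⧸ (N ⊓ Iq p).subgroupOf (Iq p)) := Fintype.ofFinite _
  have hcard : ¬ p ∣ Fintype.card (Iq p ⧸ (N ⊓ Iq p).subgroupOf (Iq p)) := by
    rw [← Nat.card_eq_fintype_card, Subgroup.inf_subgroupOf_right]
    exact card_not_dvd N hexp
  have hzfix : z ∈ Fermat.Agent.S55.Places.Fix (N ⊓ Iq p) := by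
    rw [mem_Fix_iff]
    intro g hg
    exact hfix g hg.2 hg.1
  have hy := Unram.tr_mem (W := Iq p) (W' := N ⊓ Iq p) hzfix
  have hsum : Unram.tr (Iq p) (N ⊓ Iq p) z =
      z * ((Fintype.card (Iq p ⧸ (N ⊓ Iq p).subgroupOf (Iq p)) : Qbar) +
        ∑ c : Iq p ⧸ (N ⊓ Iq p).subgroupOf (Iq p), (th ((Quotient.out c : Iq p) : GQ) z - 1)) := by
    unfold Unram.tr
    rw [Finset.sum_sub_distrib, Finset.sum_const, Finset.card_univ, nsmul_eq_mul, mul_one,
      add_sub_cancel, Finset.mul_sum]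
    refine Finset.sum_congr rfl fun c _ => ?_
    unfold th
    field_simp
  have h1 : nrm p ((Fintype.card (Iq p ⧸ (N ⊓ Iq p).subgroupOf (Iq p)) : ℕ) : Qbar) = 1 :=
    nrm_natCast_eq_one p ((Nat.coprime_comm.mp ((Nat.Prime.coprime_iff_not_dvd hp).mpr hcard)))
  have h2 : nrm p (∑ c : Iq p ⧸ (N ⊓ Iq p).subgroupOf (Iq p),
      (th ((Quotient.out c : Iq p) : GQ) z - 1)) < 1 :=
    nrm_sum_lt _ _ one_pos fun c _ => hθ _ (Quotient.out c : Iq p).2
  have h3 : nrm p (Unram.tr (Iq p) (N ⊓ Iq p) z) = nrm p z := by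
    rw [hsum, nrm_mul, nrm_add_eq_max_of_ne p (by rw [h1]; exact h2.ne'), h1, max_eq_left h2.le,
      mul_one]
  have hy0 : Unram.tr (Iq p) (N ⊓ Iq p) z ≠ 0 := by
    rw [← nrm_pos_iff p, h3, nrm_pos_iff]
    exact hz0
  obtain ⟨n, hn⟩ := exists_zpow_of_fixed (p := p) ((mem_Fix_iff).1 hy) hy0
  exact ⟨n, by rw [← h3, hn]⟩

/-! ### TASK S56/T-Trace-b -/

variable {k : Type} [Field k] [Algebra (ZMod p) k] {M : GQ →* M2 k}
  {R : Subring Qbar} {H : Subalgebra R ((Fin 2 → k) → Qbar)} {z0 : Qbar}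

/-- `C.ord.finite : Finite (Fin 2 → k)`, so `k` and `M2 k` are finite; the quotient injects into `M2 k`
(`Quotient.lift`/`QuotientGroup.kerLift_injective` for `M.comp (Iq p).subtype`, whose kernel is `M.ker.subgroupOf (Iq p)`). -/
theorem finite_quot (C : Ctx p M H) : Finite (Iq p ⧸ M.ker.subgroupOf (Iq p)) := by
  have h1 : Finite (Fin 2 → k) := C.ord.finite
  have h2 : Finite k :=
    Finite.of_injective (fun a : k => (fun _ => a : Fin 2 → k)) (fun a b h => congrFun h 0)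
  have h3 : Finite (M2 k) := inferInstanceAs (Finite (Fin 2 → Fin 2 → k))
  have key : ∀ x y : Iq p, x⁻¹ * y ∈ M.ker.subgroupOf (Iq p) ↔ M x = M y := by
    intro x y
    rw [Subgroup.mem_subgroupOf, MonoidHom.mem_ker]
    push_cast
    constructor
    · intro h
      have h1 : M (y : GQ) = M (x : GQ) * M ((x : GQ)⁻¹ * (y : GQ)) := by
        rw [← map_mul, mul_inv_cancel_left]
      rw [h1, h, mul_one]
    · intro h
      rw [map_mul, ← h, ← map_mul, inv_mul_cancel, map_one]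
  let f : (Iq p ⧸ M.ker.subgroupOf (Iq p)) → M2 k :=
    Quotient.lift (fun x : Iq p => M x) (by
      intro x y hxy
      exact (key x y).1 (QuotientGroup.leftRel_apply.1 hxy))
  refine Finite.of_injective f ?_
  intro a b
  induction a using QuotientGroup.induction_on with
  | H x =>
    induction b using QuotientGroup.induction_on with
    | H y =>
      intro h
      exact QuotientGroup.eq.2 ((key x y).2 h)

/-- `z0 = f x - f 0`, `g (f x) = f (M g x) = f x`. -/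
theorem fixed_z0 (C : Ctx p M H) (T : IsTop p H z0) {g : GQ} (hg : g ∈ Iq p) (hM : M g = 1) :
    g z0 = z0 := by
  obtain ⟨f, hf, x, rfl⟩ := T.att
  have h1 : ∀ y, g (f y) = f y := by
    intro y
    rw [← C.ord.equiv f hf g (Iq_le_Dq p hg) y]
    simp [resAct, hM]
  rw [map_sub, h1, h1]

/-- `det (M g) = 1 = (cyE p g : k)`, `cyE p g < p` so `cyE p g = 1`; `map_eq_pow_cyE`. -/
theorem fixed_zeta (C : Ctx p M H) {g : GQ} (hM : M g = 1) {ζ : Qbar} (hζ : ζ ^ p = 1) :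
    g ζ = ζ := by
  have h1 := det_eq_cyE C g
  rw [hM, Matrix.det_one] at h1
  have hch : CharP k p := LinAlg_charP p
  have h2 : ((1 : ℕ) : k) = (cyE p g : k) := by rw [Nat.cast_one]; exact h1
  rw [CharP.natCast_eq_natCast k p] at h2
  have h3 : cyE p g = 1 := by
    have h4 := cyE_lt (p := p) g
    have h5 : 1 < p := (Fact.out : p.Prime).one_lt
    unfold Nat.ModEq at h2
    rw [Nat.mod_eq_of_lt h5, Nat.mod_eq_of_lt h4] at h2
    exact h2.symm
  rw [map_eq_pow_cyE g hζ, h3, pow_one]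

/-- `nrm_zpow_of_tame M.ker` (`finite_quot`; `hexp`: `map_pow`, `M_pow_e`; `hfix`: `fixed_z0`, `fixed_zeta`; `hθ`: `th_div_arg`, `th_pow_arg`,
`a := th τ z0 ^ (p+1)`, `b := th τ (ζ - 1)`, both `≡ cyE p τ` (`th_pow_succ`, `th_cyclo`), `|b| = 1` (`nrm_th`),
`a / b - 1 = (a - b)/b`). -/
theorem exists_zpow_z1 (C : Ctx p M H) (T : IsTop p H z0) {ζ : Qbar} (hζ : IsPrimitiveRoot ζ p) :
    ∃ n : ℤ, nrm p (z0 ^ (p + 1) / (ζ - 1)) = (p : ℝ) ^ n := by
  have hfin := finite_quot C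
  have hz0 : z0 ≠ 0 := T.ne_zero C
  have hζ1 : ζ - 1 ≠ 0 := sub_ne_zero.2 (hζ.ne_one (Fact.out : p.Prime).one_lt)
  refine nrm_zpow_of_tame M.ker ?_ (div_ne_zero (pow_ne_zero _ hz0) hζ1) ?_ ?_
  · intro τ hτ
    rw [MonoidHom.mem_ker, map_pow]
    exact M_pow_e C T hτ
  · intro g hg hgM
    rw [MonoidHom.mem_ker] at hgM
    rw [map_div₀, map_pow, map_sub, map_one, fixed_z0 C T hg hgM, fixed_zeta C hgM hζ.pow_eq_one]
  · intro τ hτ
    rw [th_div_arg, th_pow_arg]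
    set a := th τ z0 ^ (p + 1) with ha
    set b := th τ (ζ - 1) with hb
    have hb1 : nrm p b = 1 := nrm_th (Iq_le_Dq p hτ) hζ1
    have hb0 : b ≠ 0 := th_ne_zero τ hζ1
    have h1 : nrm p (a - (cyE p τ : Qbar)) < 1 := th_pow_succ C T hτ
    have h2 : nrm p (b - (cyE p τ : Qbar)) < 1 := th_cyclo τ hζ
    have e : a / b - 1 = ((a - (cyE p τ : Qbar)) - (b - (cyE p τ : Qbar))) / b := by
      field_simp
      ring
    rw [e, nrm_div, hb1, div_one]
    exact (nrm_sub_le_max p _ _).trans_lt (max_lt h1 h2)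

end Fermat.Agent.S56.F.Tame

end
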