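/-
S56 / F / Tame / Main : step (E) and the main theorem of block T.      (helper93)
-/
import Fermat.Agent.S56.F.Tame.Trace

set_option autoImplicit false

noncomputable section

namespace Fermat.Agent.S56.F.Tame

open Fermat.Agent.S55.Places ExtCitation Polynomial

variable {p : ℕ} [Fact p.Prime] {k : Type} [Field k] [Algebra (ZMod p) k] {M : GQ →* M2 k}
  {R : Subring Qbar} {H : Subalgebra R ((Fin 2 → k) → Qbar)} {z0 : Qbar}

/-- pure numerics. -/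
theorem Main_numerics (hp3 : 3 ≤ p) {r ρ l : ℝ} (hr0 : 0 < r) (hr1 : r < 1) (hρ0 : 0 < ρ)
    (hl0 : 0 < l) (hρ : ρ ^ (p ^ 2 - 1) = (p : ℝ)⁻¹) (hl : l ^ (p - 1) = (p : ℝ)⁻¹)
    (hle : (p : ℝ)⁻¹ ≤ r ^ (p - 1)) {n : ℤ} (hn : r ^ (p + 1) / l = (p : ℝ) ^ n) :
    r = ρ ∨ r = ρ ^ p := by
  have hpR : (1 : ℝ) < p := by exact_mod_cast (by omega : 1 < p)
  have hp0 : (0 : ℝ) < p := by linarith
  have he : p ^ 2 - 1 = (p + 1) * (p - 1) := by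
    obtain ⟨q, rfl⟩ : ∃ q, p = q + 1 := ⟨p - 1, by omega⟩
    simp only [Nat.add_sub_cancel]
    have : (q + 1) ^ 2 = (q + 1 + 1) * q + 1 := by ring
    omega
  have hρ1 : ρ < 1 := by
    by_contra hcon
    have h1 : 1 ≤ ρ ^ (p ^ 2 - 1) := one_le_pow₀ (not_lt.1 hcon)
    rw [hρ] at h1
    exact absurd h1 (not_le.2 (inv_lt_one_of_one_lt₀ hpR))
  -- `l = ρ^(p+1)`
  have hlρ : l = ρ ^ (p + 1) := by
    have h1 : l ^ (p - 1) = (ρ ^ (p + 1)) ^ (p - 1) := by rw [hl, ← pow_mul, ← he, hρ]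
    exact (pow_left_inj₀ hl0.le (pow_pos hρ0 _).le (by omega)).1 h1
  -- `p^n = ρ^(-n e)`
  have hpn : (p : ℝ) ^ n = ρ ^ (-n * ((p + 1 : ℕ) : ℤ) * ((p - 1 : ℕ) : ℤ)) := by
    have h1 : (p : ℝ) = (ρ ^ (p ^ 2 - 1))⁻¹ := by rw [hρ, inv_inv]
    conv_lhs => rw [h1]
    rw [he, ← zpow_natCast ρ, ← zpow_neg, ← zpow_mul]
    congr 1
    push_cast
    ring
  set j : ℤ := 1 - n * ((p - 1 : ℕ) : ℤ) with hj
  have hrj : r = ρ ^ j := by
    have h1 : r ^ (p + 1) = (ρ ^ j) ^ (p + 1) := by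
      have h2 : r ^ (p + 1) = (p : ℝ) ^ n * l := by rw [← hn]; field_simp
      rw [h2, hpn, hlρ, ← zpow_natCast ρ (p + 1), ← zpow_add₀ hρ0.ne', ← zpow_natCast (ρ ^ j),
        ← zpow_mul]
      congr 1
      rw [hj]
      ring
    exact (pow_left_inj₀ hr0.le (zpow_pos hρ0 _).le (by omega)).1 h1
  have hj0 : 0 < j := by
    rw [hrj, ← zpow_zero ρ] at hr1
    exact (zpow_lt_zpow_iff_right_of_lt_one₀ hρ0 hρ1).1 hr1
  have hj1 : j ≤ p + 1 := by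
    rw [← hρ, hrj, he, ← zpow_natCast ρ, ← zpow_natCast (ρ ^ j), ← zpow_mul] at hle
    have h1 := (zpow_le_zpow_iff_right_of_lt_one₀ hρ0 hρ1).1 hle
    push_cast at h1
    have h2 : (0 : ℤ) < ((p - 1 : ℕ) : ℤ) := by
      have : 0 < p - 1 := by omega
      exact_mod_cast this
    exact le_of_mul_le_mul_right h1 h2
  have hq : ((p - 1 : ℕ) : ℤ) = (p : ℤ) - 1 := by
    rw [Nat.cast_sub (by omega)]; simp
  have hp3' : (3 : ℤ) ≤ p := by exact_mod_cast hp3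
  rw [hq] at hj
  have hn1 : n = 0 ∨ n = -1 := by
    have h1 : -2 < n := by
      by_contra hcon
      have : n ≤ -2 := by omega
      nlinarith
    have h2 : n < 1 := by
      by_contra hcon
      have : 1 ≤ n := by omega
      nlinarith
    omega
  rcases hn1 with h | h
  · left
    rw [hrj, hj, h]
    simp
  · right
    rw [hrj, hj, h, ← zpow_natCast]
    congr 1
    ring

/-- **(E)**: `r = |ϖ|` or `|ϖ|^p`. -/
theorem top_norm (C : Ctx p M H) (T : IsTop p H z0) {ϖ : Qbar}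
    (hϖ : ϖ ^ (p ^ 2 - 1) = -(p : Qbar)) : nrm p z0 = nrm p ϖ ∨ nrm p z0 = nrm p ϖ ^ p := by
  have hp : p.Prime := Fact.out
  have hp3 : 3 ≤ p := by
    have := hp.two_le
    have := C.hp2
    omega
  have : NeZero p := ⟨hp.ne_zero⟩
  obtain ⟨ζ, hζ⟩ := cyclo_exists_primitiveRoot p
  obtain ⟨n, hn⟩ := exists_zpow_z1 C T hζ
  have hζ1 : ζ - 1 ≠ 0 := sub_ne_zero.2 (hζ.ne_one hp.one_lt)
  have hϖ0 : ϖ ≠ 0 := by
    rintro rfl
    have he : p ^ 2 - 1 ≠ 0 := by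
      have : 4 ≤ p ^ 2 := by nlinarith
      omega
    rw [zero_pow he] at hϖ
    have hp0 : (p : Qbar) ≠ 0 := by exact_mod_cast hp.ne_zero
    exact hp0 (neg_eq_zero.mp hϖ.symm)
  have hl : nrm p (ζ - 1) ^ (p - 1) = (p : ℝ)⁻¹ := by
    have h1 := nrm_one_sub_zeta (p := p) (n := 0) (ζ := ζ) (by simpa using hζ)
    rw [pow_zero, one_mul, nrm_sub_comm] at h1
    exact h1
  refine Main_numerics hp3 (T.pos C) (T.nrm_lt_one C) ((nrm_pos_iff p).2 hϖ0)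
    ((nrm_pos_iff p).2 hζ1) ?_ hl (T.inv_le_pow C) (n := n) ?_
  · rw [← nrm_pow, hϖ, nrm_neg, nrm_natCast_self]
  · rw [← hn, nrm_div, nrm_pow]

/-- **Main theorem of block T** (context form). -/
theorem annihilate_ctx (C : Ctx p M H) {ϖ : Qbar} (hϖ : ϖ ^ (p ^ 2 - 1) = -(p : Qbar)) {τ : GQ}
    (hτ : τ ∈ Iq p) (P : ℤ[X]) (hP : nrm p (aeval (τ ϖ / ϖ) P) < 1) : aeval (M τ) P = 0 := by
  have hp : p.Prime := Fact.out
  obtain ⟨z0, T⟩ := exists_top C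
  have hτD := Iq_le_Dq p hτ
  have hz0 := T.ne_zero C
  have hϖ0 : ϖ ≠ 0 := by
    rintro rfl
    have he : p ^ 2 - 1 ≠ 0 := by
      have := hp.two_le
      have : 4 ≤ p ^ 2 := by nlinarith
      omega
    rw [zero_pow he] at hϖ
    have hp0 : (p : Qbar) ≠ 0 := by exact_mod_cast hp.ne_zero
    exact hp0 (neg_eq_zero.mp hϖ.symm)
  have hP' : nrm p (aeval (th τ ϖ) P) < 1 := hP
  rw [key C T hτ]
  rcases top_norm C T hϖ with h | h
  · exact nrm_aeval_lt_of_congr (nrm_th hτD hϖ0).le (nrm_th hτD hz0).le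
      (th_congr hτ hϖ0 h.symm) P hP'
  · have h1 := nrm_aeval_pow_lt (nrm_th hτD hϖ0).le P hP'
    have h2 := th_congr hτ (z := ϖ ^ p) (z' := z0) (pow_ne_zero _ hϖ0) (by rw [nrm_pow, h])
    rw [th_pow_arg] at h2
    exact nrm_aeval_lt_of_congr (by rw [nrm_pow, nrm_th hτD hϖ0, one_pow]) (nrm_th hτD hz0).le
      h2 P h1

/-- **`Tame.annihilate`** in the shape of board #2119 (with `Dq p` instead of `⊤`: use `Ord.mono`). -/
theorem annihilate (hp2 : p ≠ 2) (M : GQ →* M2 k) (hM : ResHyp p M)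
    (hirr : ∀ v : Fin 2 → k, v ≠ 0 → ∃ σ ∈ Dq p, ∀ a : k, (M σ).mulVec v ≠ a • v)
    (hR : ∀ r ∈ R, nrm p r ≤ 1) (h : Ord R (Dq p) (resAct M) H) {ϖ : Qbar}
    (hϖ : ϖ ^ (p ^ 2 - 1) = -(p : Qbar)) {τ : GQ} (hτ : τ ∈ Iq p) (P : ℤ[X])
    (hP : nrm p (aeval (τ ϖ / ϖ) P) < 1) : aeval (M τ) P = 0 :=
  annihilate_ctx ⟨hp2, hR, h, hM.det, hirr⟩ hϖ hτ P hP

end Fermat.Agent.S56.F.Tame

end
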