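/-
S56 / F / Tame / Export : the exports of block T for the glue (`C.Setup`, `K.hNπ`).      (helper93)

* `annihilate`            (in `Main.lean`)  from an order `Ord R (Dq p) (resAct M) H`
* `exists_ctx`            the context from ONE flat lift (`IsClassOf M ρ' z`, `ρ'.IsFlatAt p`)
* `annihilate_of_flat`    the same from ONE flat lift
* `M_eq_one_of_fix`       `τ ∈ I_p`, `τ ϖ = ϖ`  ⟹  `M τ = 1`
* `pi_pow_succ_cyclo`     `(τ ϖ/ϖ)^(p+1) ≡ cyE p τ` for `τ ∈ I_p`   (independent of `M`)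
-/
import Fermat.Agent.S56.F.Tame.Main
import Fermat.Agent.S56.F.Ram.Bridge

set_option autoImplicit false

noncomputable section

namespace Fermat.Agent.S56.F.Tame

open Fermat.Agent.S55.Places ExtCitation Polynomial

variable {p : ℕ} [Fact p.Prime] {k : Type} [Field k] [Algebra (ZMod p) k]

theorem Export_pi_ne_zero {ϖ : Qbar} (hϖ : ϖ ^ (p ^ 2 - 1) = -(p : Qbar)) : ϖ ≠ 0 := by
  have hp : p.Prime := Fact.out
  rintro rfl
  have he : p ^ 2 - 1 ≠ 0 := by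
    have := hp.two_le
    have : 4 ≤ p ^ 2 := by nlinarith
    omega
  rw [zero_pow he] at hϖ
  have hp0 : (p : Qbar) ≠ 0 := by exact_mod_cast hp.ne_zero
  exact hp0 (neg_eq_zero.mp hϖ.symm)

/-- `|ϖ|^(p+1) = |ζ - 1|`. -/
theorem Export_nrm_pi_pow {ϖ : Qbar} (hϖ : ϖ ^ (p ^ 2 - 1) = -(p : Qbar)) {ζ : Qbar}
    (hζ : IsPrimitiveRoot ζ p) : nrm p (ϖ ^ (p + 1)) = nrm p (ζ - 1) := by
  have hp : p.Prime := Fact.out
  have hp2 := hp.two_le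
  have he : p ^ 2 - 1 = (p + 1) * (p - 1) := by
    obtain ⟨q, hq⟩ : ∃ q, p = q + 1 := ⟨p - 1, by omega⟩
    rw [hq]
    simp only [Nat.add_sub_cancel]
    have : (q + 1) ^ 2 = (q + 1 + 1) * q + 1 := by ring
    omega
  have hl : nrm p (ζ - 1) ^ (p - 1) = (p : ℝ)⁻¹ := by
    have h1 := nrm_one_sub_zeta (p := p) (n := 0) (ζ := ζ) (by simpa using hζ)
    rw [pow_zero, one_mul, nrm_sub_comm] at h1
    exact h1
  have h1 : nrm p (ϖ ^ (p + 1)) ^ (p - 1) = nrm p (ζ - 1) ^ (p - 1) := by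
    rw [hl, ← nrm_pow, ← pow_mul, ← he, hϖ, nrm_neg, nrm_natCast_self]
  exact (pow_left_inj₀ (nrm_nonneg p _) (nrm_nonneg p _) (by omega)).1 h1

/-- **`θ₂^(p+1) = ω`** on inertia. -/
theorem pi_pow_succ_cyclo {ϖ : Qbar} (hϖ : ϖ ^ (p ^ 2 - 1) = -(p : Qbar)) {τ : GQ}
    (hτ : τ ∈ Iq p) : nrm p ((τ ϖ / ϖ) ^ (p + 1) - (cyE p τ : Qbar)) < 1 := by
  have hp : p.Prime := Fact.out
  have : NeZero p := ⟨hp.ne_zero⟩
  obtain ⟨ζ, hζ⟩ := cyclo_exists_primitiveRoot p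
  have h1 := th_congr hτ (z := ϖ ^ (p + 1)) (z' := ζ - 1) (pow_ne_zero _ (Export_pi_ne_zero hϖ))
    (Export_nrm_pi_pow hϖ hζ)
  rw [th_pow_arg] at h1
  have h2 := th_cyclo (p := p) τ hζ
  have e : (τ ϖ / ϖ) ^ (p + 1) - (cyE p τ : Qbar)
      = (th τ ϖ ^ (p + 1) - th τ (ζ - 1)) + (th τ (ζ - 1) - (cyE p τ : Qbar)) := by
    unfold th; ring
  rw [e]
  exact (nrm_add_le_max p _ _).trans_lt (max_lt h1 h2)

/-- the context of block T from ONE flat lift. -/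
theorem exists_ctx [Finite k] (hp2 : p ≠ 2) (M : GQ →* M2 k) (hM : ResHyp p M)
    (hirr : ∀ v : Fin 2 → k, v ≠ 0 → ∃ σ ∈ Dq p, ∀ a : k, (M σ).mulVec v ≠ a • v)
    (ρ' : GaloisRepAdic (DualNumber k)) (z : GQ → M2 k) (hz : IsClassOf M ρ' z)
    (hfl : ρ'.IsFlatAt p) :
    ∃ H : Subalgebra (Ram.OW p ⊤) ((Fin 2 → k) → Qbar), Ctx p M H := by
  obtain ⟨H, hH⟩ := Ram.exists_ord_defAct_top M ρ' z hz hfl
  exact ⟨_, hp2, Ram.nrm_le_one_of_mem_OW ⊤, (Ram.exists_ord_resAct_top hH).mono le_top, hM.det,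
    hirr⟩

/-- `Tame.annihilate` from ONE flat lift. -/
theorem annihilate_of_flat [Finite k] (hp2 : p ≠ 2) (M : GQ →* M2 k) (hM : ResHyp p M)
    (hirr : ∀ v : Fin 2 → k, v ≠ 0 → ∃ σ ∈ Dq p, ∀ a : k, (M σ).mulVec v ≠ a • v)
    (ρ' : GaloisRepAdic (DualNumber k)) (z : GQ → M2 k) (hz : IsClassOf M ρ' z)
    (hfl : ρ'.IsFlatAt p) {ϖ : Qbar} (hϖ : ϖ ^ (p ^ 2 - 1) = -(p : Qbar)) {τ : GQ}
    (hτ : τ ∈ Iq p) (P : ℤ[X]) (hP : nrm p (aeval (τ ϖ / ϖ) P) < 1) : aeval (M τ) P = 0 := by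
  obtain ⟨H, C⟩ := exists_ctx hp2 M hM hirr ρ' z hz hfl
  exact annihilate_ctx C hϖ hτ P hP

variable {M : GQ →* M2 k} {R : Subring Qbar} {H : Subalgebra R ((Fin 2 → k) → Qbar)}

/-- `τ ∈ I_p`, `τ ϖ = ϖ`  ⟹  `M τ = 1`. -/
theorem M_eq_one_of_fix (C : Ctx p M H) {ϖ : Qbar} (hϖ : ϖ ^ (p ^ 2 - 1) = -(p : Qbar)) {τ : GQ}
    (hτ : τ ∈ Iq p) (hfix : τ ϖ = ϖ) : M τ = 1 := by
  have h := annihilate_ctx C hϖ hτ (X - 1) (by
    rw [hfix, div_self (Export_pi_ne_zero hϖ)]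
    simp)
  rw [map_sub, aeval_X, map_one, sub_eq_zero] at h
  exact h

end Fermat.Agent.S56.F.Tame

end
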